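/-
S52 (the 3–5 switch), function-field half in Laurent series (helper5; prefix `s52l_`).

Everything happens inside `Ω := ℚ̄((u))` with the coefficientwise action of `G_ℚ`:
* `s52l_act γ : Ω ≃+* Ω`, `s52l_u`;
* `s52l_Field Fb`: a `G_ℚ`-stable subfield `ℚ̄(u) ⊆ Fb ⊆ Ω`, finite over `ℚ̄(u)`, of genus `0`;
* `s52l_Norm_stmt` [NORM]: such a field is `ℚ̄(s)` for a `G_ℚ`-fixed `s = u + O(u²)`, and its
  `G_ℚ`-fixed elements are `ℚ(s)`;
* `s52l_Twist_stmt` [TWIST]: a unit `η` of `ℚ̄[[u]]` with `η² ∈ ℚ̄(s)` and `γ η ∈ ℚ̄(s)·η` for all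
  `γ` can be rescaled by an element of `ℚ̄(s)ˣ` so that its square lies in `ℚ(s)` and has
  constant term `1`.
-/
import Mathlib
import Fermat.Agent.S52.Seams
import Fermat.Prelude.Def_AlgebraicCurve_CanonicalDivisor

set_option autoImplicit false

namespace Fermat.Agent.S52

open AlgebraicCurve

noncomputable section

/-- `Ω = ℚ̄((u))` -/
abbrev s52l_Om : Type := LaurentSeries s52_Qb

/-- The coefficientwise action of `G_ℚ` on `ℚ̄((u))`, as a ring automorphism. -/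
def s52l_act (γ : s52_G) : s52l_Om ≃+* s52l_Om where
  toFun f := f.map (γ : s52_Qb →+* s52_Qb)
  invFun f := f.map (γ.symm : s52_Qb →+* s52_Qb)
  left_inv f := by
    ext n
    simp
  right_inv f := by
    ext n
    simp
  map_mul' f g := HahnSeries.map_mul ((γ : s52_Qb →+* s52_Qb) : s52_Qb →ₙ+* s52_Qb)
  map_add' f g := HahnSeries.map_add ((γ : s52_Qb →+* s52_Qb) : s52_Qb →+ s52_Qb)

@[simp] theorem s52l_act_coeff (γ : s52_G) (f : s52l_Om) (n : ℤ) :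
    (s52l_act γ f).coeff n = γ (f.coeff n) := rfl

/-- the uniformiser `u` -/
def s52l_u : s52l_Om := HahnSeries.single 1 1

/-- A `G_ℚ`-stable subfield of `ℚ̄((u))`, finite over `ℚ̄(u)`, of genus `0`. -/
structure s52l_Field (Fb : IntermediateField s52_Qb s52l_Om) : Prop where
  stable : ∀ γ : s52_G, ∀ f ∈ Fb, s52l_act γ f ∈ Fb
  u_mem : s52l_u ∈ Fb
  fin : FiniteDimensional (IntermediateField.adjoin s52_Qb {(⟨s52l_u, u_mem⟩ : ↥Fb)}) ↥Fb
  genus0 : ∀ [HasCanonicalDivisor (K := s52_Qb) (F := ↥Fb)], genus s52_Qb ↥Fb = 0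

/-- **[NORM]** -/
def s52l_Norm_stmt : Prop :=
  ∀ Fb : IntermediateField s52_Qb s52l_Om, s52l_Field Fb →
    ∃ s : s52l_Om, s ∈ Fb ∧ (∀ γ : s52_G, s52l_act γ s = s) ∧
      s.order = 1 ∧ s.leadingCoeff = 1 ∧
      Fb = IntermediateField.adjoin s52_Qb {s} ∧
      ∀ f ∈ Fb, (∀ γ : s52_G, s52l_act γ f = f) → f ∈ IntermediateField.adjoin ℚ {s}

/-- **[TWIST]** -/
def s52l_Twist_stmt : Prop :=
  ∀ s : s52l_Om, (∀ γ : s52_G, s52l_act γ s = s) → s.order = 1 →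
    ∀ η : s52l_Om, η ≠ 0 → η.order = 0 → η ^ 2 ∈ IntermediateField.adjoin s52_Qb {s} →
      (∀ γ : s52_G, ∃ r ∈ IntermediateField.adjoin s52_Qb {s}, s52l_act γ η = r * η) →
      ∃ d ∈ IntermediateField.adjoin ℚ {s}, ∃ h ∈ IntermediateField.adjoin s52_Qb {s},
        h ≠ 0 ∧ d = η ^ 2 * h ^ 2 ∧ d.order = 0 ∧ d.leadingCoeff = 1

end

end Fermat.Agent.S52
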