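/-
S52 [TWIST] (helper5; prefix `s52l_`): proof of `s52l_Twist_stmt` (LAU/Seams.lean).

`s` a `G_ℚ`-fixed Laurent series of order `1`, `η` a unit power series with `η² ∈ ℚ̄(s)` and
`γ η ∈ ℚ̄(s)·η` for all `γ`.  Write `η² = p(s)/q(s)`, `P := p·q`, so `(η q(s))² = P(s)`.  The
hypothesis gives polynomial identities `A² P = B² P^γ`, hence the set of roots of odd multiplicity
of `P` is Galois stable, its monic squarefree polynomial `D₀` has rational coefficients, and
`P = lead · D₀ · R²`.  The multiplicity of the root `0` of `P` is even (orders), so `D₀(0) ≠ 0`,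
and `d := D₀(s)/D₀(0)`, `h := q(s)/(e R(s))` with `e² = lead · D₀(0)`.
-/
import Fermat.Agent.S52.LAU.Seams

set_option autoImplicit false

namespace Fermat.Agent.S52

open Polynomial

noncomputable section

/-! ### Basic lemmas on `ℚ̄((u))` -/


theorem s52l_algebraMap_eq (a : s52_Qb) : algebraMap s52_Qb s52l_Om a = HahnSeries.C a := by
  rw [HahnSeries.algebraMap_apply']
  exact HahnSeries.ofPowerSeries_C a

theorem s52l_act_algebraMap (γ : s52_G) (a : s52_Qb) :
    s52l_act γ (algebraMap s52_Qb s52l_Om a) = algebraMap s52_Qb s52l_Om (γ a) := by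
  rw [s52l_algebraMap_eq, s52l_algebraMap_eq]
  exact HahnSeries.map_C a _

/-- `f` with vanishing negative coefficients and nonzero constant coefficient has order `0`. -/
theorem s52l_order_eq_zero {f : s52l_Om} (hneg : ∀ n : ℤ, n < 0 → f.coeff n = 0)
    (h0 : f.coeff 0 ≠ 0) : f.order = 0 ∧ f.leadingCoeff = f.coeff 0 := by
  have hf : f ≠ 0 := HahnSeries.ne_zero_of_coeff_ne_zero h0
  have h1 : f.order ≤ 0 := HahnSeries.order_le_of_coeff_ne_zero h0
  have h2 : 0 ≤ f.order := by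
    by_contra hlt
    rw [not_le] at hlt
    exact hf (HahnSeries.coeff_order_eq_zero.mp (hneg _ hlt))
  have h3 : f.order = 0 := le_antisymm h1 h2
  refine ⟨h3, ?_⟩
  rw [HahnSeries.leadingCoeff_eq, h3]

/-- An element of order `1` is a power series without constant term. -/
theorem s52l_exists_powerSeries {s : s52l_Om} (hs : s.order = 1) :
    ∃ σ : PowerSeries s52_Qb, HahnSeries.ofPowerSeries ℤ s52_Qb σ = s ∧
      PowerSeries.constantCoeff σ = 0 := by
  refine ⟨PowerSeries.mk fun n => s.coeff n, ?_, ?_⟩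
  · ext i
    rw [PowerSeries.coeff_coe]
    split_ifs with hi
    · exact (HahnSeries.coeff_eq_zero_of_lt_order (by rw [hs]; omega)).symm
    · rw [PowerSeries.coeff_mk]
      congr 1
      omega
  · rw [← PowerSeries.coeff_zero_eq_constantCoeff_apply, PowerSeries.coeff_mk]
    exact HahnSeries.coeff_eq_zero_of_lt_order (by rw [hs]; norm_num)

/-- the inclusion `ℚ̄[[u]] → ℚ̄((u))` as a `ℚ̄`-algebra map (for the algebra structure on
Laurent series that instance search finds) -/
def s52l_coeAlg : PowerSeries s52_Qb →ₐ[s52_Qb] s52l_Om :=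
  { HahnSeries.ofPowerSeries ℤ s52_Qb with
    commutes' := fun a => (HahnSeries.algebraMap_apply' ℤ a).symm }

theorem s52l_coeAlg_apply (σ : PowerSeries s52_Qb) :
    s52l_coeAlg σ = HahnSeries.ofPowerSeries ℤ s52_Qb σ := rfl

/-- `aeval s P` through power series. -/
theorem s52l_aeval_coe (σ : PowerSeries s52_Qb) (P : s52_Qb[X]) :
    aeval (HahnSeries.ofPowerSeries ℤ s52_Qb σ) P =
      HahnSeries.ofPowerSeries ℤ s52_Qb (aeval σ P) := by
  have h := Polynomial.aeval_algHom_apply s52l_coeAlg σ P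
  exact h

/-- the constant coefficient of `P(σ)` for `σ(0) = 0` -/
theorem s52l_constantCoeff_aeval {σ : PowerSeries s52_Qb}
    (hσ : PowerSeries.constantCoeff σ = 0) (P : s52_Qb[X]) :
    PowerSeries.constantCoeff (aeval σ P) = P.coeff 0 := by
  rw [Polynomial.aeval_def, Polynomial.hom_eval₂, hσ, Polynomial.eval₂_at_zero]
  simp

/-- For `s` of order `1`: `P(s)` is a power series with constant term `P(0)`. -/
theorem s52l_coeff_aeval {s : s52l_Om} (hs : s.order = 1) (P : s52_Qb[X]) :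
    (∀ n : ℤ, n < 0 → (aeval s P).coeff n = 0) ∧ (aeval s P).coeff 0 = P.coeff 0 := by
  obtain ⟨σ, rfl, hσ⟩ := s52l_exists_powerSeries hs
  rw [s52l_aeval_coe]
  constructor
  · intro n hn
    rw [PowerSeries.coeff_coe, if_pos hn]
  · rw [PowerSeries.coeff_coe, if_neg (lt_irrefl 0)]
    simp only [Int.natAbs_zero]
    rw [PowerSeries.coeff_zero_eq_constantCoeff_apply, s52l_constantCoeff_aeval hσ]

/-- For `s` of order `1` and `P(0) ≠ 0`: `P(s)` has order `0` and leading coefficient `P(0)`. -/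
theorem s52l_order_aeval {s : s52l_Om} (hs : s.order = 1) {P : s52_Qb[X]} (hP : P.coeff 0 ≠ 0) :
    (aeval s P).order = 0 ∧ (aeval s P).leadingCoeff = P.coeff 0 := by
  obtain ⟨h1, h2⟩ := s52l_coeff_aeval hs P
  have := s52l_order_eq_zero h1 (by rw [h2]; exact hP)
  rw [h2] at this
  exact this

/-- An element of order `1` is transcendental over `ℚ̄`. -/
theorem s52l_transcendental {s : s52l_Om} (hs : s.order = 1) : Transcendental s52_Qb s := by
  intro halg
  have hint : IsIntegral s52_Qb s := halg.isIntegral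
  have hdeg : (minpoly s52_Qb s).degree = 1 :=
    IsAlgClosed.degree_eq_one_of_irreducible s52_Qb (minpoly.irreducible hint)
  obtain ⟨a, ha⟩ := minpoly.mem_range_of_degree_eq_one s52_Qb s hdeg
  have h1 : s.order = 0 := by
    rw [← ha]
    show (algebraMap s52_Qb s52l_Om a).order = 0
    rw [s52l_algebraMap_eq]
    exact HahnSeries.order_C
  rw [hs] at h1
  exact one_ne_zero h1

theorem s52l_aeval_eq_zero_iff {s : s52l_Om} (hs : s.order = 1) (P : s52_Qb[X]) :
    aeval s P = 0 ↔ P = 0 :=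
  ⟨fun h => by
    by_contra hP
    exact s52l_transcendental hs ⟨P, hP, h⟩, fun h => by rw [h, map_zero]⟩

theorem s52l_aeval_injective {s : s52l_Om} (hs : s.order = 1) {P Q : s52_Qb[X]}
    (h : aeval s P = aeval s Q) : P = Q := by
  have h1 : aeval s (P - Q) = 0 := by rw [map_sub, h, sub_self]
  exact sub_eq_zero.mp ((s52l_aeval_eq_zero_iff hs _).mp h1)

/-- the Galois action on `P(s)` for a fixed `s` is the action on the coefficients of `P` -/
theorem s52l_act_aeval {s : s52l_Om} (γ : s52_G) (hs : s52l_act γ s = s) (P : s52_Qb[X]) :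
    s52l_act γ (aeval s P) = aeval s (P.map (γ : s52_Qb →+* s52_Qb)) := by
  rw [Polynomial.aeval_def, Polynomial.aeval_def, Polynomial.eval₂_map]
  have h := Polynomial.hom_eval₂ P (algebraMap s52_Qb s52l_Om) (s52l_act γ).toRingHom s
  have h2 : ((s52l_act γ).toRingHom.comp (algebraMap s52_Qb s52l_Om)) =
      (algebraMap s52_Qb s52l_Om).comp (γ : s52_Qb →+* s52_Qb) := by
    ext a : 1
    exact s52l_act_algebraMap γ a
  rw [h2] at h
  have h3 : (s52l_act γ).toRingHom s = s := hs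
  rw [h3] at h
  exact h

/-- order of `P(s)` is the multiplicity of the root `0` -/
theorem s52l_order_aeval_eq {s : s52l_Om} (hs : s.order = 1) {P : s52_Qb[X]} (hP : P ≠ 0) :
    (aeval s P).order = (P.rootMultiplicity 0 : ℤ) := by
  obtain ⟨Q, hQ, hnd⟩ := Polynomial.exists_eq_pow_rootMultiplicity_mul_and_not_dvd P hP 0
  rw [C_0, sub_zero] at hQ hnd
  have hQ0 : Q.coeff 0 ≠ 0 := fun h => hnd (Polynomial.X_dvd_iff.mpr h)
  have hs0 : s ≠ 0 := by
    rintro rfl
    rw [HahnSeries.order_zero] at hs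
    exact zero_ne_one hs
  have hQs : aeval s Q ≠ 0 := by
    intro h
    rw [s52l_aeval_eq_zero_iff hs] at h
    rw [h] at hQ0
    exact hQ0 rfl
  conv_lhs => rw [hQ]
  rw [map_mul, map_pow, aeval_X, HahnSeries.order_mul (pow_ne_zero _ hs0) hQs,
    HahnSeries.order_pow, hs, (s52l_order_aeval hs hQ0).1]
  simp



/-! ### Descent of the square class of a polynomial -/

open Classical in
/-- the roots of odd multiplicity -/
def s52l_oddRoots (P : s52_Qb[X]) : Finset s52_Qb :=
  P.roots.toFinset.filter fun β => Odd (P.rootMultiplicity β)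

theorem s52l_mem_oddRoots {P : s52_Qb[X]} (hP : P ≠ 0) (β : s52_Qb) :
    β ∈ s52l_oddRoots P ↔ Odd (P.rootMultiplicity β) := by
  classical
  unfold s52l_oddRoots
  rw [Finset.mem_filter, Multiset.mem_toFinset, Polynomial.mem_roots hP]
  constructor
  · exact fun h => h.2
  · intro h
    refine ⟨?_, h⟩
    rw [← Polynomial.rootMultiplicity_pos hP]
    exact h.pos

/-- the squarefree part -/
def s52l_sqfree (P : s52_Qb[X]) : s52_Qb[X] := ∏ β ∈ s52l_oddRoots P, (X - C β)

theorem s52l_sqfree_eval {P : s52_Qb[X]} (hP : P ≠ 0) (β : s52_Qb) :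
    (s52l_sqfree P).eval β = 0 ↔ Odd (P.rootMultiplicity β) := by
  unfold s52l_sqfree
  rw [Polynomial.eval_prod, Finset.prod_eq_zero_iff, ← s52l_mem_oddRoots hP]
  constructor
  · rintro ⟨a, ha, h⟩
    rw [eval_sub, eval_X, eval_C, sub_eq_zero] at h
    rw [h]
    exact ha
  · intro h
    exact ⟨β, h, by simp⟩

/-- `P = lead · sqfree(P) · R²` -/
theorem s52l_factor (P : s52_Qb[X]) :
    ∃ R : s52_Qb[X], P = C P.leadingCoeff * s52l_sqfree P * R ^ 2 := by
  classical
  by_cases hP : P = 0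
  · exact ⟨0, by simp [hP]⟩
  have h1 : P = C P.leadingCoeff * (P.roots.map (X - C ·)).prod :=
    (IsAlgClosed.splits P).eq_prod_roots
  rw [Finset.prod_multiset_map_count] at h1
  refine ⟨∏ β ∈ P.roots.toFinset, (X - C β) ^ (P.rootMultiplicity β / 2), ?_⟩
  have h2 : s52l_sqfree P = ∏ β ∈ P.roots.toFinset, (X - C β) ^ (P.rootMultiplicity β % 2) := by
    unfold s52l_sqfree s52l_oddRoots
    rw [Finset.prod_filter]
    refine Finset.prod_congr rfl fun β _ => ?_
    split_ifs with h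
    · rw [Nat.odd_iff.mp h, pow_one]
    · rw [Nat.not_odd_iff.mp h, pow_zero]
  rw [h2, ← Finset.prod_pow, mul_assoc, ← Finset.prod_mul_distrib]
  conv_lhs => rw [h1]
  congr 1
  refine Finset.prod_congr rfl fun β _ => ?_
  rw [Polynomial.count_roots, ← pow_mul, ← pow_add]
  congr 1
  omega

/-- parity of multiplicities is Galois-invariant under the hypothesis of the descent lemma -/
theorem s52l_parity {P : s52_Qb[X]} (hP : P ≠ 0) (γ : s52_G) {A B : s52_Qb[X]} (hA : A ≠ 0)
    (hB : B ≠ 0) (h : A ^ 2 * P = B ^ 2 * P.map (γ : s52_Qb →+* s52_Qb)) (β : s52_Qb) :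
    Odd (P.rootMultiplicity (γ β)) ↔ Odd (P.rootMultiplicity β) := by
  have hinj : Function.Injective (γ : s52_Qb →+* s52_Qb) := (γ : s52_Qb →+* s52_Qb).injective
  have hPγ : P.map (γ : s52_Qb →+* s52_Qb) ≠ 0 := (Polynomial.map_ne_zero_iff hinj).mpr hP
  have h1 : rootMultiplicity β P = rootMultiplicity (γ β) (P.map (γ : s52_Qb →+* s52_Qb)) :=
    Polynomial.eq_rootMultiplicity_map hinj β
  have h2 := congrArg (rootMultiplicity (γ β)) h
  rw [rootMultiplicity_mul (mul_ne_zero (pow_ne_zero 2 hA) hP),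
    rootMultiplicity_mul (mul_ne_zero (pow_ne_zero 2 hB) hPγ), ← h1,
    pow_two, pow_two, rootMultiplicity_mul (mul_ne_zero hA hA),
    rootMultiplicity_mul (mul_ne_zero hB hB)] at h2
  rw [Nat.odd_iff, Nat.odd_iff]
  omega

/-- the squarefree part is Galois-invariant -/
theorem s52l_sqfree_map {P : s52_Qb[X]} (hP : P ≠ 0) (γ : s52_G) {A B : s52_Qb[X]} (hA : A ≠ 0)
    (hB : B ≠ 0) (h : A ^ 2 * P = B ^ 2 * P.map (γ : s52_Qb →+* s52_Qb)) :
    (s52l_sqfree P).map (γ : s52_Qb →+* s52_Qb) = s52l_sqfree P := by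
  unfold s52l_sqfree
  rw [Polynomial.map_prod]
  refine Finset.prod_equiv γ.toEquiv (fun β => ?_) (fun β _ => ?_)
  · rw [s52l_mem_oddRoots hP, s52l_mem_oddRoots hP]
    exact (s52l_parity hP γ hA hB h β).symm
  · rw [Polynomial.map_sub, Polynomial.map_X, Polynomial.map_C]
    rfl

/-- **Descent.** -/
theorem s52l_descent {P : s52_Qb[X]} (hP : P ≠ 0)
    (h : ∀ γ : s52_G, ∃ A B : s52_Qb[X], A ≠ 0 ∧ B ≠ 0 ∧
      A ^ 2 * P = B ^ 2 * P.map (γ : s52_Qb →+* s52_Qb)) :
    ∃ (D : ℚ[X]) (R : s52_Qb[X]), D.map (algebraMap ℚ s52_Qb) = s52l_sqfree P ∧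
      P = C P.leadingCoeff * D.map (algebraMap ℚ s52_Qb) * R ^ 2 := by
  have h1 : s52l_sqfree P ∈ Polynomial.lifts (algebraMap ℚ s52_Qb) := by
    have : IsAlgClosure ℚ s52_Qb := ⟨inferInstance, AlgebraicClosure.isAlgebraic ℚ⟩
    have : IsGalois ℚ s52_Qb := inferInstance
    rw [Polynomial.lifts_iff_coeff_lifts]
    intro n
    rw [InfiniteGalois.mem_range_algebraMap_iff_fixed]
    intro γ
    obtain ⟨A, B, hA, hB, hAB⟩ := h γ
    have h2 := congrArg (fun Q => Q.coeff n) (s52l_sqfree_map hP γ hA hB hAB)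
    simp only [Polynomial.coeff_map] at h2
    exact h2
  obtain ⟨D, hD⟩ := h1
  obtain ⟨R, hR⟩ := s52l_factor P
  have hD' : D.map (algebraMap ℚ s52_Qb) = s52l_sqfree P := hD
  exact ⟨D, R, hD', by rw [hD']; exact hR⟩


/-! ### The twist cell -/

theorem s52l_field_aux {Ω : Type*} [Field Ω] (x Ds Rs qs Le Ll η : Ω) (hx : x ≠ 0) (hR : Rs ≠ 0)
    (hLl : Ll ≠ 0) (H1 : (η * qs) ^ 2 = Ll * Ds * Rs ^ 2) (H2 : Le ^ 2 = Ll * x) :
    x⁻¹ * Ds = η ^ 2 * (qs / (Le * Rs)) ^ 2 := by
  rw [div_pow, mul_pow Le, H2, ← mul_div_assoc, ← mul_pow, H1]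
  field_simp

theorem s52l_isScalarTower :
    @IsScalarTower ℚ s52_Qb s52l_Om Algebra.toSMul Algebra.toSMul Algebra.toSMul :=
  IsScalarTower.of_algebraMap_eq' (Subsingleton.elim _ _)

theorem s52l_aeval_rat (s : s52l_Om) (D : ℚ[X]) :
    aeval s (D.map (algebraMap ℚ s52_Qb)) = aeval s D :=
  haveI := s52l_isScalarTower
  Polynomial.aeval_map_algebraMap s52_Qb s D

/-- **[TWIST]** -/
theorem s52l_twist : s52l_Twist_stmt := by
  intro s hfix hs η hη hη0 hsq hγ
  obtain ⟨p, q, hpq⟩ := (IntermediateField.mem_adjoin_simple_iff s52_Qb _).mp hsq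
  have hη2 : η ^ 2 ≠ 0 := pow_ne_zero 2 hη
  have hqs : aeval s q ≠ 0 := by
    intro h
    rw [h, div_zero] at hpq
    exact hη2 hpq
  have hps : aeval s p ≠ 0 := by
    intro h
    rw [h, zero_div] at hpq
    exact hη2 hpq
  have hq : q ≠ 0 := fun h => hqs (by rw [h, map_zero])
  have hp : p ≠ 0 := fun h => hps (by rw [h, map_zero])
  have h1 : η ^ 2 * aeval s q = aeval s p := by
    rw [hpq, div_mul_cancel₀ _ hqs]
  have hP : p * q ≠ 0 := mul_ne_zero hp hq
  have hζ : (η * aeval s q) ^ 2 = aeval s (p * q) := by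
    rw [mul_pow, map_mul, ← h1]
    ring
  -- the polynomial identities
  have hdesc : ∀ γ : s52_G, ∃ A B : s52_Qb[X], A ≠ 0 ∧ B ≠ 0 ∧
      A ^ 2 * (p * q) = B ^ 2 * (p * q).map (γ : s52_Qb →+* s52_Qb) := by
    intro γ
    obtain ⟨r, hr, hrη⟩ := hγ γ
    obtain ⟨a, b, hab⟩ := (IntermediateField.mem_adjoin_simple_iff s52_Qb _).mp hr
    have hγη : s52l_act γ η ≠ 0 := fun h => hη ((map_eq_zero_iff _ (s52l_act γ).injective).mp h)
    have hr0 : r ≠ 0 := by
      rintro rfl
      rw [zero_mul] at hrη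
      exact hγη hrη
    have hbs : aeval s b ≠ 0 := by
      intro h
      rw [h, div_zero] at hab
      exact hr0 hab
    have has : aeval s a ≠ 0 := by
      intro h
      rw [h, zero_div] at hab
      exact hr0 hab
    have ha : a ≠ 0 := fun h => has (by rw [h, map_zero])
    have hb : b ≠ 0 := fun h => hbs (by rw [h, map_zero])
    have hinj : Function.Injective (γ : s52_Qb →+* s52_Qb) := (γ : s52_Qb →+* s52_Qb).injective
    have hqγ : q.map (γ : s52_Qb →+* s52_Qb) ≠ 0 := (Polynomial.map_ne_zero_iff hinj).mpr hq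
    have h2 := congrArg (s52l_act γ) h1
    rw [map_mul, map_pow, s52l_act_aeval γ (hfix γ), s52l_act_aeval γ (hfix γ), hrη, hab] at h2
    have h3 : aeval s a ^ 2 * η ^ 2 * aeval s (q.map (γ : s52_Qb →+* s52_Qb)) =
        aeval s b ^ 2 * aeval s (p.map (γ : s52_Qb →+* s52_Qb)) := by
      rw [← h2]
      field_simp
    have h4 : aeval s (a ^ 2 * p * q.map (γ : s52_Qb →+* s52_Qb)) =
        aeval s (b ^ 2 * p.map (γ : s52_Qb →+* s52_Qb) * q) := by
      simp only [map_mul, map_pow]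
      rw [← h1]
      linear_combination (aeval s q) * h3
    have h5 := s52l_aeval_injective hs h4
    refine ⟨a * q.map (γ : s52_Qb →+* s52_Qb), b * q, mul_ne_zero ha hqγ, mul_ne_zero hb hq, ?_⟩
    rw [Polynomial.map_mul]
    linear_combination (q * q.map (γ : s52_Qb →+* s52_Qb)) * h5
  obtain ⟨D, R, hD, hPD⟩ := s52l_descent hP hdesc
  -- the root `0` has even multiplicity
  have heven : Even ((p * q).rootMultiplicity 0) := by
    have h6 := congrArg HahnSeries.order hζ
    rw [s52l_order_aeval_eq hs hP, HahnSeries.order_pow] at h6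
    have h7 : Even (((p * q).rootMultiplicity 0 : ℕ) : ℤ) :=
      ⟨(η * aeval s q).order, by rw [← h6, two_nsmul]⟩
    exact (Int.even_coe_nat _).mp h7
  have hD0 : (D.map (algebraMap ℚ s52_Qb)).eval 0 ≠ 0 := by
    rw [hD]
    intro h
    rw [s52l_sqfree_eval hP] at h
    exact (Nat.not_odd_iff_even.mpr heven) h
  have hDc : D.coeff 0 ≠ 0 := by
    intro h
    apply hD0
    rw [← Polynomial.coeff_zero_eq_eval_zero, Polynomial.coeff_map, h, map_zero]
  have hc0 : algebraMap ℚ s52_Qb (D.coeff 0) ≠ 0 := (_root_.map_ne_zero _).mpr hDc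
  have hlead : (p * q).leadingCoeff ≠ 0 := leadingCoeff_ne_zero.mpr hP
  obtain ⟨e, he⟩ := IsAlgClosed.exists_pow_nat_eq
    ((p * q).leadingCoeff * algebraMap ℚ s52_Qb (D.coeff 0)) (n := 2) two_pos
  have he0 : e ≠ 0 := by
    rintro rfl
    rw [zero_pow two_ne_zero] at he
    exact mul_ne_zero hlead hc0 he.symm
  have hR : R ≠ 0 := by
    rintro rfl
    rw [zero_pow two_ne_zero, mul_zero] at hPD
    exact hP hPD
  have hRs : aeval s R ≠ 0 := fun h => hR ((s52l_aeval_eq_zero_iff hs R).mp h)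
  have hes : algebraMap s52_Qb s52l_Om e ≠ 0 := (_root_.map_ne_zero _).mpr he0
  have hcs : algebraMap s52_Qb s52l_Om (algebraMap ℚ s52_Qb (D.coeff 0)) ≠ 0 :=
    (_root_.map_ne_zero _).mpr hc0
  -- the normalised rational polynomial
  have hd : aeval s (C (D.coeff 0)⁻¹ * D) =
      aeval s ((C (D.coeff 0)⁻¹ * D).map (algebraMap ℚ s52_Qb)) :=
    (s52l_aeval_rat s _).symm
  have hcoeff : ((C (D.coeff 0)⁻¹ * D).map (algebraMap ℚ s52_Qb)).coeff 0 = 1 := by
    rw [Polynomial.coeff_map, Polynomial.coeff_C_mul, inv_mul_cancel₀ hDc, map_one]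
  have hord := s52l_order_aeval hs (P := (C (D.coeff 0)⁻¹ * D).map (algebraMap ℚ s52_Qb))
    (by rw [hcoeff]; exact one_ne_zero)
  rw [hcoeff, ← hd] at hord
  refine ⟨aeval s (C (D.coeff 0)⁻¹ * D), ?_, aeval s q / aeval s (C e * R), ?_, ?_, ?_,
    hord.1, hord.2⟩
  · exact IntermediateField.algebra_adjoin_le_adjoin ℚ _
      (Polynomial.aeval_mem_adjoin_singleton ℚ s)
  · exact (IntermediateField.mem_adjoin_simple_iff s52_Qb _).mpr ⟨q, C e * R, rfl⟩
  · refine div_ne_zero hqs ?_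
    rw [map_mul, aeval_C]
    exact mul_ne_zero hes hRs
  · rw [hd, Polynomial.map_mul, Polynomial.map_C, map_mul, aeval_C, map_inv₀, map_inv₀, map_mul,
      aeval_C]
    refine s52l_field_aux _ _ (aeval s R) _ _ (algebraMap s52_Qb s52l_Om (p * q).leadingCoeff) _
      hcs hRs ((_root_.map_ne_zero _).mpr hlead) ?_ ?_
    · rw [hζ]
      conv_lhs => rw [hPD]
      simp only [map_mul, map_pow, aeval_C]
    · rw [← map_pow, he, map_mul]

end

end Fermat.Agent.S52
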