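/-
S52 (the 3–5 switch), Laurent-series design, node [NORM], part 1 (helper26; prefix `s52ln_`).

For a subfield `Fb` of `K((u))` containing `K` and `u`: the valuation ring `Fb ∩ K[[u]]` is a
discrete valuation ring with uniformiser `u`, so it is a prelude `Place K Fb`
(`s52ln_P0`), whose order function is the order of the Laurent expansion (`s52ln_ord_P0`).
-/
import Mathlib
import Fermat.Prelude.Def_AlgebraicCurve_CanonicalDivisor

set_option autoImplicit false
noncomputable section
namespace Fermat.Agent.S52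
open AlgebraicCurve

variable {K : Type*} [Field K]

/-- the valuation subring `Fb ∩ K[[u]]` of a subfield `Fb` of `K((u))` -/
def s52ln_O (Fb : IntermediateField K (LaurentSeries K)) : ValuationSubring ↥Fb where
  carrier := {f | 0 ≤ (f : LaurentSeries K).orderTop}
  mul_mem' := by
    intro a b ha hb
    show 0 ≤ ((a : LaurentSeries K) * (b : LaurentSeries K)).orderTop
    rw [HahnSeries.orderTop_mul]
    exact add_nonneg ha hb
  one_mem' := by
    show 0 ≤ (1 : LaurentSeries K).orderTop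
    rw [HahnSeries.orderTop_one]
  add_mem' := by
    intro a b ha hb
    exact le_trans (le_inf ha hb) HahnSeries.min_orderTop_le_orderTop_add
  zero_mem' := by
    show 0 ≤ (0 : LaurentSeries K).orderTop
    rw [HahnSeries.orderTop_zero]
    exact le_top
  neg_mem' := by
    intro a ha
    show 0 ≤ (-(a : LaurentSeries K)).orderTop
    rw [HahnSeries.orderTop_neg]
    exact ha
  mem_or_inv_mem' := by
    intro a
    by_cases ha : a = 0
    · left
      subst ha
      show 0 ≤ (0 : LaurentSeries K).orderTop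
      rw [HahnSeries.orderTop_zero]
      exact le_top
    · have hne : (a : LaurentSeries K) ≠ 0 := fun h => ha (Subtype.ext h)
      have hne' : ((a⁻¹ : ↥Fb) : LaurentSeries K) ≠ 0 :=
        fun h => (inv_ne_zero ha) (Subtype.ext h)
      have h1 : (a : LaurentSeries K).order + ((a⁻¹ : ↥Fb) : LaurentSeries K).order = 0 := by
        have : (a : LaurentSeries K) * ((a⁻¹ : ↥Fb) : LaurentSeries K) = 1 := by
          rw [← MulMemClass.coe_mul, mul_inv_cancel₀ ha]
          rfl
        rw [← HahnSeries.order_mul hne hne', this, HahnSeries.order_one]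
      show 0 ≤ (a : LaurentSeries K).orderTop ∨ 0 ≤ ((a⁻¹ : ↥Fb) : LaurentSeries K).orderTop
      rw [← HahnSeries.order_eq_orderTop_of_ne_zero hne,
        ← HahnSeries.order_eq_orderTop_of_ne_zero hne']
      rcases le_total 0 (a : LaurentSeries K).order with h | h
      · left
        exact_mod_cast h
      · right
        have : 0 ≤ ((a⁻¹ : ↥Fb) : LaurentSeries K).order := by omega
        exact_mod_cast this


variable {Fb : IntermediateField K (LaurentSeries K)}

theorem s52ln_coe_ne_zero {f : ↥Fb} (hf : f ≠ 0) : (f : LaurentSeries K) ≠ 0 :=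
  fun h => hf (Subtype.ext h)

theorem s52ln_mem_O_iff {f : ↥Fb} (hf : f ≠ 0) :
    f ∈ s52ln_O Fb ↔ 0 ≤ (f : LaurentSeries K).order := by
  show 0 ≤ (f : LaurentSeries K).orderTop ↔ _
  rw [← HahnSeries.order_eq_orderTop_of_ne_zero (s52ln_coe_ne_zero hf)]
  exact_mod_cast Iff.rfl

theorem s52ln_order_mul {f g : ↥Fb} (hf : f ≠ 0) (hg : g ≠ 0) :
    ((f * g : ↥Fb) : LaurentSeries K).order =
      (f : LaurentSeries K).order + (g : LaurentSeries K).order :=
  HahnSeries.order_mul (s52ln_coe_ne_zero hf) (s52ln_coe_ne_zero hg)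

theorem s52ln_order_inv {f : ↥Fb} (hf : f ≠ 0) :
    ((f⁻¹ : ↥Fb) : LaurentSeries K).order = -(f : LaurentSeries K).order := by
  have h := s52ln_order_mul hf (inv_ne_zero hf)
  rw [mul_inv_cancel₀ hf] at h
  have h1 : ((1 : ↥Fb) : LaurentSeries K).order = 0 := HahnSeries.order_one
  omega

theorem s52ln_order_zpow {f : ↥Fb} (hf : f ≠ 0) (n : ℤ) :
    ((f ^ n : ↥Fb) : LaurentSeries K).order = n * (f : LaurentSeries K).order := by
  have hnat : ∀ m : ℕ, ((f ^ m : ↥Fb) : LaurentSeries K).order =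
      m * (f : LaurentSeries K).order := by
    intro m
    induction m with
    | zero =>
      rw [pow_zero]
      have h1 : ((1 : ↥Fb) : LaurentSeries K).order = 0 := HahnSeries.order_one
      simp
    | succ m ih =>
      rw [pow_succ, s52ln_order_mul (pow_ne_zero m hf) hf, ih]
      push_cast
      ring
  rcases n with m | m
  · simp
  · rw [Int.negSucc_eq, zpow_neg, s52ln_order_inv (zpow_ne_zero _ hf)]
    have := hnat (m + 1)
    rw [← zpow_natCast] at this
    push_cast at this ⊢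
    rw [this]
    ring

/-- an element of order `0` gives a unit of the valuation ring -/
theorem s52ln_isUnit_of_order_eq_zero {f : ↥Fb} (hf : f ≠ 0)
    (h0 : (f : LaurentSeries K).order = 0) (hmem : f ∈ s52ln_O Fb) :
    IsUnit (⟨f, hmem⟩ : ↥(s52ln_O Fb)) := by
  have hinv : f⁻¹ ∈ s52ln_O Fb := by
    rw [s52ln_mem_O_iff (inv_ne_zero hf), s52ln_order_inv hf, h0, neg_zero]
  refine isUnit_iff_exists_inv.mpr ⟨⟨f⁻¹, hinv⟩, ?_⟩
  apply Subtype.ext
  show f * f⁻¹ = 1
  exact mul_inv_cancel₀ hf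

theorem s52ln_order_eq_zero_of_isUnit {a : ↥(s52ln_O Fb)} (ha : IsUnit a) :
    ((a : ↥Fb) : LaurentSeries K).order = 0 := by
  obtain ⟨b, hb⟩ := isUnit_iff_exists_inv.mp ha
  have hab : (a : ↥Fb) * (b : ↥Fb) = 1 := congrArg Subtype.val hb
  have ha0 : (a : ↥Fb) ≠ 0 := left_ne_zero_of_mul_eq_one hab
  have hb0 : (b : ↥Fb) ≠ 0 := right_ne_zero_of_mul_eq_one hab
  have h1 := s52ln_order_mul ha0 hb0
  rw [hab] at h1
  have h2 : ((1 : ↥Fb) : LaurentSeries K).order = 0 := HahnSeries.order_one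
  have h3 := (s52ln_mem_O_iff ha0).mp a.2
  have h4 := (s52ln_mem_O_iff hb0).mp b.2
  omega


/-- the uniformiser `u` -/
def s52ln_u (K : Type*) [Field K] : LaurentSeries K := HahnSeries.single 1 1

theorem s52ln_u_ne_zero : s52ln_u K ≠ 0 := by
  rw [s52ln_u]
  exact HahnSeries.single_ne_zero one_ne_zero

theorem s52ln_order_u : (s52ln_u K).order = 1 := by
  rw [s52ln_u]
  exact HahnSeries.order_single one_ne_zero

section place

variable (hu : s52ln_u K ∈ Fb)

/-- `u` as an element of `Fb` -/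
def s52ln_uF : ↥Fb := ⟨s52ln_u K, hu⟩

theorem s52ln_uF_ne_zero : s52ln_uF hu ≠ 0 := fun h =>
  s52ln_u_ne_zero (congrArg Subtype.val h)

theorem s52ln_uF_mem : s52ln_uF hu ∈ s52ln_O Fb := by
  rw [s52ln_mem_O_iff (s52ln_uF_ne_zero hu)]
  show 0 ≤ (s52ln_u K).order
  rw [s52ln_order_u]
  norm_num

/-- `u` as an element of the valuation ring -/
def s52ln_uO : ↥(s52ln_O Fb) := ⟨s52ln_uF hu, s52ln_uF_mem hu⟩

theorem s52ln_uO_irreducible : Irreducible (s52ln_uO hu) := by
  rw [irreducible_iff]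
  constructor
  · intro h
    have := s52ln_order_eq_zero_of_isUnit h
    have h1 : ((s52ln_uO hu : ↥Fb) : LaurentSeries K).order = 1 := s52ln_order_u
    omega
  · intro a b hab
    have hab' : s52ln_uF hu = (a : ↥Fb) * (b : ↥Fb) := congrArg Subtype.val hab
    have ha0 : (a : ↥Fb) ≠ 0 := by
      intro h
      rw [h, zero_mul] at hab'
      exact s52ln_uF_ne_zero hu hab'
    have hb0 : (b : ↥Fb) ≠ 0 := by
      intro h
      rw [h, mul_zero] at hab'
      exact s52ln_uF_ne_zero hu hab'
    have h1 := s52ln_order_mul ha0 hb0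
    rw [← hab'] at h1
    have h2 : ((s52ln_uF hu : ↥Fb) : LaurentSeries K).order = 1 := s52ln_order_u
    have h3 := (s52ln_mem_O_iff ha0).mp a.2
    have h4 := (s52ln_mem_O_iff hb0).mp b.2
    rcases (show (a : ↥Fb).1.order = 0 ∨ (b : ↥Fb).1.order = 0 by omega) with h | h
    · left
      exact s52ln_isUnit_of_order_eq_zero ha0 h a.2
    · right
      exact s52ln_isUnit_of_order_eq_zero hb0 h b.2

theorem s52ln_factor {x : ↥(s52ln_O Fb)} (hx : x ≠ 0) :
    ∃ n : ℕ, Associated (s52ln_uO hu ^ n) x := by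
  have hx0 : (x : ↥Fb) ≠ 0 := fun h => hx (Subtype.ext h)
  have hord := (s52ln_mem_O_iff hx0).mp x.2
  obtain ⟨n, hn⟩ := Int.eq_ofNat_of_zero_le hord
  refine ⟨n, ?_⟩
  -- `w := x / u^n` is a unit
  set w : ↥Fb := (x : ↥Fb) * (s52ln_uF hu ^ n)⁻¹ with hw
  have hun : s52ln_uF hu ^ n ≠ 0 := pow_ne_zero n (s52ln_uF_ne_zero hu)
  have hw0 : w ≠ 0 := mul_ne_zero hx0 (inv_ne_zero hun)
  have hword : (w : LaurentSeries K).order = 0 := by
    rw [hw, s52ln_order_mul hx0 (inv_ne_zero hun), s52ln_order_inv hun, hn]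
    have := s52ln_order_zpow (s52ln_uF_ne_zero hu) (n : ℤ)
    rw [zpow_natCast] at this
    rw [this]
    have h2 : ((s52ln_uF hu : ↥Fb) : LaurentSeries K).order = 1 := s52ln_order_u
    rw [h2]
    ring
  have hwmem : w ∈ s52ln_O Fb := by
    rw [s52ln_mem_O_iff hw0, hword]
  have hwu := s52ln_isUnit_of_order_eq_zero hw0 hword hwmem
  refine ⟨hwu.unit, ?_⟩
  apply Subtype.ext
  show (s52ln_uF hu) ^ n * w = (x : ↥Fb)
  rw [hw]
  field_simp

include hu in
theorem s52ln_O_isDVR : IsDiscreteValuationRing ↥(s52ln_O Fb) :=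
  IsDiscreteValuationRing.ofHasUnitMulPowIrreducibleFactorization
    ⟨s52ln_uO hu, s52ln_uO_irreducible hu, fun hx => s52ln_factor hu hx⟩

/-- the place of `Fb / K` cut out by `K[[u]]` -/
def s52ln_P0 : Place K ↥Fb where
  toValuationSubring := s52ln_O Fb
  algebraMap_mem' := by
    intro a
    by_cases ha : a = 0
    · subst ha
      rw [map_zero]
      exact zero_mem _
    · have hne : algebraMap K ↥Fb a ≠ 0 := by simpa using ha
      rw [s52ln_mem_O_iff hne]
      show 0 ≤ (algebraMap K (LaurentSeries K) a).order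
      rw [LaurentSeries.algebraMap_apply, HahnSeries.order_C]
  ne_top' := by
    intro htop
    have hmem : (s52ln_uF hu)⁻¹ ∈ s52ln_O Fb := by
      rw [htop]
      exact ValuationSubring.mem_top _
    rw [s52ln_mem_O_iff (inv_ne_zero (s52ln_uF_ne_zero hu)),
      s52ln_order_inv (s52ln_uF_ne_zero hu)] at hmem
    have h2 : ((s52ln_uF hu : ↥Fb) : LaurentSeries K).order = 1 := s52ln_order_u
    omega
  isPrincipalIdealRing' :=
    haveI := s52ln_O_isDVR hu
    inferInstance

/-- the order at `P₀` is the order of the Laurent expansion -/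
theorem s52ln_ord_P0 {f : ↥Fb} (hf : f ≠ 0) :
    (s52ln_P0 hu).ord f = (f : LaurentSeries K).order := by
  set n : ℤ := (f : LaurentSeries K).order with hn
  have hun : s52ln_uF hu ^ n ≠ 0 := zpow_ne_zero n (s52ln_uF_ne_zero hu)
  set w : ↥Fb := f * (s52ln_uF hu ^ n)⁻¹ with hw
  have hw0 : w ≠ 0 := mul_ne_zero hf (inv_ne_zero hun)
  have hword : (w : LaurentSeries K).order = 0 := by
    rw [hw, s52ln_order_mul hf (inv_ne_zero hun), s52ln_order_inv hun,
      s52ln_order_zpow (s52ln_uF_ne_zero hu) n]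
    have h2 : ((s52ln_uF hu : ↥Fb) : LaurentSeries K).order = 1 := s52ln_order_u
    rw [h2, ← hn]
    ring
  have hwmem : w ∈ s52ln_O Fb := by
    rw [s52ln_mem_O_iff hw0, hword]
  have hwu := s52ln_isUnit_of_order_eq_zero hw0 hword hwmem
  have hfeq : f = ((hwu.unit : ↥(s52ln_O Fb)) : ↥Fb) * ((s52ln_uO hu : ↥Fb) ^ n) := by
    show f = w * (s52ln_uF hu) ^ n
    rw [hw]
    field_simp
  have key := (s52ln_P0 hu).ord_unit_smul_zpow hwu.unit (s52ln_uO_irreducible hu) n
  rw [hfeq]
  exact key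

end place

end Fermat.Agent.S52
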