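/-
S52 (the 3–5 switch), Laurent-series design, node [NORM], part 2 (helper26; prefix `s52ln_`).

The coefficientwise action `s52l_act γ` of `G_ℚ` on `ℚ̄((u))`: it preserves orders, acts through
`γ` on the constants, and induces on every stable subfield `Fb` a prelude `SemilinearAut` which
fixes the place `s52ln_P0` cut out by `ℚ̄[[u]]`.
-/
import Mathlib
import Fermat.Agent.S52.LAU.Seams
import Fermat.Agent.S52.LAU.NormPlace
import Fermat.Prelude.Def_AlgebraicCurve_BaseChangeGalois

set_option autoImplicit false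

noncomputable section

namespace Fermat.Agent.S52

open AlgebraicCurve

theorem s52ln_act_C (γ : s52_G) (a : s52_Qb) :
    s52l_act γ (algebraMap s52_Qb s52l_Om a) = algebraMap s52_Qb s52l_Om (γ a) := by
  ext n
  rw [s52l_act_coeff, LaurentSeries.algebraMap_apply, LaurentSeries.algebraMap_apply]
  by_cases hn : n = 0
  · subst hn
    simp
  · rw [HahnSeries.C_apply, HahnSeries.C_apply, HahnSeries.coeff_single_of_ne hn,
      HahnSeries.coeff_single_of_ne hn, map_zero]

theorem s52ln_act_inv_act (γ : s52_G) (f : s52l_Om) : s52l_act γ⁻¹ (s52l_act γ f) = f := by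
  ext n
  rw [s52l_act_coeff, s52l_act_coeff]
  exact γ.symm_apply_apply _

theorem s52ln_act_act_inv (γ : s52_G) (f : s52l_Om) : s52l_act γ (s52l_act γ⁻¹ f) = f := by
  ext n
  rw [s52l_act_coeff, s52l_act_coeff]
  exact γ.apply_symm_apply _

theorem s52ln_act_u (γ : s52_G) : s52l_act γ s52l_u = s52l_u := by
  ext n
  rw [s52l_act_coeff, s52l_u]
  by_cases hn : n = 1
  · subst hn
    simp
  · rw [HahnSeries.coeff_single_of_ne hn, map_zero]

theorem s52ln_order_act_le (γ : s52_G) {f : s52l_Om} (hf : f ≠ 0) :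
    (s52l_act γ f).order ≤ f.order := by
  apply HahnSeries.order_le_of_coeff_ne_zero
  rw [s52l_act_coeff]
  intro h
  have h1 : f.coeff f.order = 0 := by
    have := congrArg γ.symm h
    rwa [γ.symm_apply_apply, map_zero] at this
  exact hf (HahnSeries.coeff_order_eq_zero.mp h1)

theorem s52ln_order_act (γ : s52_G) (f : s52l_Om) : (s52l_act γ f).order = f.order := by
  by_cases hf : f = 0
  · subst hf
    rw [map_zero]
  · have hf' : s52l_act γ f ≠ 0 := fun h => hf ((s52l_act γ).injective (h.trans (map_zero _).symm))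
    have h1 := s52ln_order_act_le γ hf
    have h2 := s52ln_order_act_le γ⁻¹ hf'
    rw [s52ln_act_inv_act] at h2
    exact le_antisymm h1 h2

section semi

variable {Fb : IntermediateField s52_Qb s52l_Om}
  (hst : ∀ γ : s52_G, ∀ f ∈ Fb, s52l_act γ f ∈ Fb)

/-- the restriction of `s52l_act γ` to a stable subfield -/
def s52ln_actF (γ : s52_G) : ↥Fb ≃+* ↥Fb where
  toFun f := ⟨s52l_act γ f, hst γ f f.2⟩
  invFun f := ⟨s52l_act γ⁻¹ f, hst γ⁻¹ f f.2⟩
  left_inv f := Subtype.ext (s52ln_act_inv_act γ f)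
  right_inv f := Subtype.ext (s52ln_act_act_inv γ f)
  map_mul' f g := Subtype.ext (map_mul (s52l_act γ) (f : s52l_Om) (g : s52l_Om))
  map_add' f g := Subtype.ext (map_add (s52l_act γ) (f : s52l_Om) (g : s52l_Om))

@[simp] theorem s52ln_actF_coe (γ : s52_G) (f : ↥Fb) :
    ((s52ln_actF hst γ f : ↥Fb) : s52l_Om) = s52l_act γ f := rfl

/-- the semilinear automorphism of `Fb / ℚ̄` induced by `γ` -/
def s52ln_semi (γ : s52_G) : SemilinearAut s52_Qb ↥Fb :=
  ⟨(s52ln_actF hst γ, (γ : s52_Qb ≃+* s52_Qb)), by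
    intro a
    apply Subtype.ext
    show s52l_act γ (algebraMap s52_Qb s52l_Om a) = algebraMap s52_Qb s52l_Om (γ a)
    exact s52ln_act_C γ a⟩

theorem s52ln_semi_smul (γ : s52_G) (f : ↥Fb) :
    ((s52ln_semi hst γ • f : ↥Fb) : s52l_Om) = s52l_act γ f := rfl

theorem s52ln_semi_inv_smul (γ : s52_G) (f : ↥Fb) :
    (((s52ln_semi hst γ)⁻¹ • f : ↥Fb) : s52l_Om) = s52l_act γ⁻¹ f := rfl

variable (hu : s52ln_u s52_Qb ∈ Fb)

/-- the place `P₀` is fixed by the semilinear action -/
theorem s52ln_semi_smul_P0 (γ : s52_G) : s52ln_semi hst γ • s52ln_P0 hu = s52ln_P0 hu := by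
  apply Place.ext
  rw [SemilinearAut.smul_toValuationSubring]
  ext x
  rw [ValuationSubring.mem_pointwise_smul_iff_inv_smul_mem]
  show ((s52ln_semi hst γ)⁻¹ • x) ∈ s52ln_O Fb ↔ x ∈ s52ln_O Fb
  by_cases hx : x = 0
  · subst hx
    rw [smul_zero]
  · have hx' : (s52ln_semi hst γ)⁻¹ • x ≠ 0 := by
      intro h
      apply hx
      have := congrArg (fun z => s52ln_semi hst γ • z) h
      simpa using this
    rw [s52ln_mem_O_iff hx, s52ln_mem_O_iff hx', s52ln_semi_inv_smul, s52ln_order_act]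

end semi

end Fermat.Agent.S52
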