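/-
S52 (the 3–5 switch), Laurent-series design, node [NORM], part 3 (helper26; prefix `s52ln_`).

`G_ℚ`-fixed elements of `ℚ̄((u))` that are linearly independent over `ℚ` stay so over `ℚ̄`
(`s52ln_linDisj`); hence a `G_ℚ`-fixed rational function, with coefficients in `ℚ̄`, of a
`G_ℚ`-fixed transcendental `s` is a rational function of `s` over `ℚ` (`s52ln_mem_adjoin`).
All `ℚ`-linear combinations are written with `algebraMap ℚ s52l_Om` (no `•`), so that no choice of
a `Module ℚ` instance on `ℚ̄((u))` enters the statements.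
-/
import Mathlib
import Fermat.Agent.S52.LAU.Seams

set_option autoImplicit false

noncomputable section

namespace Fermat.Agent.S52

open IntermediateField Polynomial

/-- the action on constants -/
theorem s52ln_act_const (γ : s52_G) (a : s52_Qb) :
    s52l_act γ (algebraMap s52_Qb s52l_Om a) = algebraMap s52_Qb s52l_Om (γ a) := by
  ext n
  rw [s52l_act_coeff, LaurentSeries.algebraMap_apply, LaurentSeries.algebraMap_apply]
  by_cases hn : n = 0
  · subst hn
    simp
  · rw [HahnSeries.C_apply, HahnSeries.C_apply, HahnSeries.coeff_single_of_ne hn,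
      HahnSeries.coeff_single_of_ne hn, map_zero]

/-- rational constants -/
theorem s52ln_algebraMap_rat (q : ℚ) :
    algebraMap ℚ s52l_Om q = algebraMap s52_Qb s52l_Om (algebraMap ℚ s52_Qb q) :=
  (RingHom.map_rat_algebraMap (algebraMap s52_Qb s52l_Om) q).symm

/-- a constant fixed by `G_ℚ` is rational -/
theorem s52ln_rat_of_fixed {a : s52_Qb} (ha : ∀ γ : s52_G, γ a = a) :
    ∃ α : ℚ, algebraMap ℚ s52_Qb α = a := by
  have : IsAlgClosure ℚ s52_Qb := ⟨inferInstance, AlgebraicClosure.isAlgebraic ℚ⟩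
  exact (InfiniteGalois.mem_range_algebraMap_iff_fixed (k := ℚ) (K := s52_Qb) a).mpr ha

/-- **Linear disjointness** of the `G_ℚ`-fixed field of `ℚ̄((u))` and `ℚ̄` over `ℚ`. -/
theorem s52ln_linDisj {ι : Type*} [Fintype ι] (w : ι → s52l_Om)
    (hw : ∀ (γ : s52_G) (i : ι), s52l_act γ (w i) = w i)
    (hli : ∀ α : ι → ℚ, ∑ i, algebraMap ℚ s52l_Om (α i) * w i = 0 → ∀ i, α i = 0)
    (c : ι → s52_Qb) (hsum : ∑ i, algebraMap s52_Qb s52l_Om (c i) * w i = 0) : ∀ i, c i = 0 := by
  classical
  suffices H : ∀ (n : ℕ) (c : ι → s52_Qb), ∑ i, algebraMap s52_Qb s52l_Om (c i) * w i = 0 →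
      (Finset.univ.filter fun i => c i ≠ 0).card ≤ n → ∀ i, c i = 0 from
    H _ c hsum le_rfl
  intro n
  induction n with
  | zero =>
    intro c _ hcard i
    by_contra hi
    have : i ∈ Finset.univ.filter fun i => c i ≠ 0 := by simp [hi]
    have := Finset.card_pos.mpr ⟨i, this⟩
    omega
  | succ n ih =>
    intro c hsum hcard
    by_contra hne
    push Not at hne
    obtain ⟨i₀, hi₀⟩ := hne
    set c' : ι → s52_Qb := fun i => c i / c i₀ with hc'
    have hc'i : ∀ i, c' i = c i / c i₀ := fun _ => rfl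
    have hsum' : ∑ i, algebraMap s52_Qb s52l_Om (c' i) * w i = 0 := by
      have : ∑ i, algebraMap s52_Qb s52l_Om (c' i) * w i =
          algebraMap s52_Qb s52l_Om (c i₀)⁻¹ * ∑ i, algebraMap s52_Qb s52l_Om (c i) * w i := by
        rw [Finset.mul_sum]
        refine Finset.sum_congr rfl fun i _ => ?_
        rw [hc'i, div_eq_mul_inv, map_mul]
        ring
      rw [this, hsum, mul_zero]
    have hfix : ∀ (γ : s52_G) (i : ι), γ (c' i) = c' i := by
      intro γ
      have hd : ∀ i, γ (c' i) - c' i = 0 := by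
        apply ih (fun i => γ (c' i) - c' i)
        · have h1 : ∑ i, algebraMap s52_Qb s52l_Om (γ (c' i)) * w i = 0 := by
            have := congrArg (s52l_act γ) hsum'
            rw [map_sum, map_zero] at this
            rw [← this]
            refine Finset.sum_congr rfl fun i _ => ?_
            rw [map_mul, hw γ i, s52ln_act_const]
          simp only [map_sub, sub_mul, Finset.sum_sub_distrib, h1, hsum', sub_zero]
        · have hsub : (Finset.univ.filter fun i => γ (c' i) - c' i ≠ 0) ⊆
              (Finset.univ.filter fun i => c i ≠ 0).erase i₀ := by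
            intro i hi
            rw [Finset.mem_filter] at hi
            rw [Finset.mem_erase, Finset.mem_filter]
            refine ⟨?_, Finset.mem_univ _, ?_⟩
            · rintro rfl
              apply hi.2
              simp [hc'i, div_self hi₀]
            · intro hci
              apply hi.2
              simp [hc'i, hci]
          have h2 := Finset.card_le_card hsub
          have hmem : i₀ ∈ Finset.univ.filter fun i => c i ≠ 0 := by simp [hi₀]
          rw [Finset.card_erase_of_mem hmem] at h2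
          have := Finset.card_pos.mpr ⟨i₀, hmem⟩
          omega
      intro i
      exact sub_eq_zero.mp (hd i)
    have hk : ∀ i, ∃ α : ℚ, algebraMap ℚ s52_Qb α = c' i := fun i =>
      s52ln_rat_of_fixed fun γ => hfix γ i
    choose α hα using hk
    have hrel : ∑ i, algebraMap ℚ s52l_Om (α i) * w i = 0 := by
      rw [← hsum']
      refine Finset.sum_congr rfl fun i _ => ?_
      rw [s52ln_algebraMap_rat, hα]
    have h0 := hli α hrel i₀
    have h1 : c' i₀ = 1 := by simp [hc'i, div_self hi₀]
    rw [← hα i₀, h0, map_zero] at h1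
    exact zero_ne_one h1

/-- The powers of a transcendental element are linearly independent. -/
theorem s52ln_pow_indep {s : s52l_Om} (hs : Transcendental ℚ s) (N : ℕ) (a : Fin N → ℚ)
    (h : ∑ n : Fin N, algebraMap ℚ s52l_Om (a n) * s ^ (n : ℕ) = 0) : ∀ n, a n = 0 := by
  classical
  set P : Polynomial ℚ := ∑ n : Fin N, Polynomial.monomial (n : ℕ) (a n) with hP
  have hev : aeval s P = 0 := by
    rw [hP, map_sum, ← h]
    refine Finset.sum_congr rfl fun n _ => ?_
    rw [aeval_monomial]
  have hP0 : P = 0 := by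
    by_contra hne
    exact hs ⟨P, hne, hev⟩
  intro m
  have := congrArg (fun Q : Polynomial ℚ => Q.coeff (m : ℕ)) hP0
  simp only [hP, finsetSum_coeff, coeff_monomial, coeff_zero] at this
  rw [Finset.sum_eq_single m] at this
  · simpa using this
  · intro n _ hnm
    rw [if_neg]
    intro h
    exact hnm (Fin.ext h)
  · intro h
    exact absurd (Finset.mem_univ m) h

/-- A `G_ℚ`-fixed rational function over `ℚ̄` of a `G_ℚ`-fixed transcendental `s` is a rational
function of `s` over `ℚ`. -/
theorem s52ln_mem_adjoin {s : s52l_Om} (hsfix : ∀ γ : s52_G, s52l_act γ s = s)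
    (hs : Transcendental ℚ s) {z : s52l_Om} (hz : ∀ γ : s52_G, s52l_act γ z = z)
    (f g : Polynomial s52_Qb) (hg : aeval s g ≠ 0) (hzg : z * aeval s g = aeval s f) :
    z ∈ ℚ⟮s⟯ := by
  classical
  set N := max f.natDegree g.natDegree + 1 with hN
  have hfN : f.natDegree < N := by omega
  have hgN : g.natDegree < N := by omega
  let w : Fin N ⊕ Fin N → s52l_Om := Sum.elim (fun n => z * s ^ (n : ℕ)) (fun n => s ^ (n : ℕ))
  let c : Fin N ⊕ Fin N → s52_Qb := Sum.elim (fun n => g.coeff n) (fun n => -f.coeff n)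
  have hw : ∀ (γ : s52_G) i, s52l_act γ (w i) = w i := by
    rintro γ (n | n)
    · show s52l_act γ (z * s ^ (n : ℕ)) = z * s ^ (n : ℕ)
      rw [map_mul, map_pow, hz, hsfix]
    · show s52l_act γ (s ^ (n : ℕ)) = s ^ (n : ℕ)
      rw [map_pow, hsfix]
  have hae : ∀ (q : Polynomial s52_Qb), q.natDegree < N →
      aeval s q = ∑ n : Fin N, algebraMap s52_Qb s52l_Om (q.coeff n) * s ^ (n : ℕ) := by
    intro q hq
    rw [aeval_eq_sum_range' hq, Fin.sum_univ_eq_sum_range
      (fun i => algebraMap s52_Qb s52l_Om (q.coeff i) * s ^ i) N]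
    exact Finset.sum_congr rfl fun i _ => Algebra.smul_def _ _
  have hsum : ∑ i, algebraMap s52_Qb s52l_Om (c i) * w i = 0 := by
    rw [Fintype.sum_sum_type]
    simp only [c, w, Sum.elim_inl, Sum.elim_inr]
    have e1 : ∑ n : Fin N, algebraMap s52_Qb s52l_Om (g.coeff n) * (z * s ^ (n : ℕ)) =
        z * aeval s g := by
      rw [hae g hgN, Finset.mul_sum]
      refine Finset.sum_congr rfl fun n _ => ?_
      ring
    have e2 : ∑ n : Fin N, algebraMap s52_Qb s52l_Om (-f.coeff n) * s ^ (n : ℕ) =
        -aeval s f := by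
      rw [hae f hfN, ← Finset.sum_neg_distrib]
      refine Finset.sum_congr rfl fun n _ => ?_
      rw [map_neg]
      ring
    rw [e1, e2, hzg]
    ring
  have hcne : ¬ ∀ i, c i = 0 := by
    intro h0
    apply hg
    rw [hae g hgN]
    refine Finset.sum_eq_zero fun n _ => ?_
    have := h0 (Sum.inl n)
    simp only [c, Sum.elim_inl] at this
    rw [this, map_zero, zero_mul]
  have hnli : ¬ ∀ α : Fin N ⊕ Fin N → ℚ,
      ∑ i, algebraMap ℚ s52l_Om (α i) * w i = 0 → ∀ i, α i = 0 :=
    fun hli => hcne (s52ln_linDisj w hw hli c hsum)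
  push Not at hnli
  obtain ⟨γ, hγ, i₁, hi₁⟩ := hnli
  rw [Fintype.sum_sum_type] at hγ
  simp only [w, Sum.elim_inl, Sum.elim_inr] at hγ
  set Gs : s52l_Om := ∑ n : Fin N, algebraMap ℚ s52l_Om (γ (Sum.inl n)) * s ^ (n : ℕ) with hGs
  set Fs : s52l_Om := ∑ n : Fin N, algebraMap ℚ s52l_Om (γ (Sum.inr n)) * s ^ (n : ℕ) with hFs
  have hrel : z * Gs + Fs = 0 := by
    rw [← hγ, hGs, Finset.mul_sum]
    congr 1
    refine Finset.sum_congr rfl fun n _ => ?_
    ring
  have hGne : Gs ≠ 0 := by
    intro hG0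
    have hF0 : Fs = 0 := by
      rw [hG0, mul_zero, zero_add] at hrel
      exact hrel
    have h1 := s52ln_pow_indep hs N (fun n => γ (Sum.inl n)) hG0
    have h2 := s52ln_pow_indep hs N (fun n => γ (Sum.inr n)) hF0
    rcases i₁ with n | n
    · exact hi₁ (h1 n)
    · exact hi₁ (h2 n)
  have hsmem : s ∈ ℚ⟮s⟯ := mem_adjoin_simple_self ℚ s
  have hmemG : Gs ∈ ℚ⟮s⟯ :=
    sum_mem fun n _ => mul_mem (IntermediateField.algebraMap_mem _ _) (pow_mem hsmem _)
  have hmemF : Fs ∈ ℚ⟮s⟯ :=
    sum_mem fun n _ => mul_mem (IntermediateField.algebraMap_mem _ _) (pow_mem hsmem _)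
  have hzeq : z = -Fs / Gs := by
    rw [eq_div_iff hGne]
    linear_combination hrel
  rw [hzeq]
  exact div_mem (neg_mem hmemF) hmemG

end Fermat.Agent.S52
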