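/-
S52 (the 3–5 switch), Laurent-series design, node [NORM], part 4 (helper26; prefix `s52ln_`):
`s52l_norm_main : s52l_Norm_stmt`.

A `G_ℚ`-stable subfield `ℚ̄(u) ⊆ Fb ⊆ ℚ̄((u))`, finite over `ℚ̄(u)` and of genus `0`, is `ℚ̄(s)` for
a `G_ℚ`-fixed `s = u + O(u²)`, and its `G_ℚ`-fixed elements are `ℚ(s)`.

Proof: the place `P₀ = Fb ∩ ℚ̄[[u]]` (`NormPlace.lean`), `s52r_geom` at `P₀` (genus zero: `L(P₀)` is
two-dimensional, generated by `1, y`, and `ℚ̄(y) = Fb`), the normalisation
`s₁ = (y - c₀)/c₋₁ = u⁻¹ + 0 + O(u)`, which is `G_ℚ`-fixed because `γ s₁ ∈ L(P₀)` has the same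
normalised expansion (`NormAct.lean`), `s = 1/s₁`, and linear disjointness (`NormFix.lean`).
-/
import Mathlib
import Fermat.Agent.S52.LAU.NormAct
import Fermat.Agent.S52.LAU.NormFix
import Fermat.Agent.S52.RAT.Geom

set_option autoImplicit false
set_option linter.unusedSectionVars false

noncomputable section

namespace Fermat.Agent.S52

open AlgebraicCurve IntermediateField KaehlerDifferential Polynomial
open Fermat.Agent.MW Fermat.Agent.JT3 Fermat.Agent.S24

/-- **canonical divisors exist** in a function field of characteristic zero over an algebraically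
closed field (same proof as `mzc_cn_hasCanonicalDivisor`; restated here to keep the import closure
of S52 small). -/
theorem s52ln_hasCanonicalDivisor {K : Type*} {F : Type*} [Field K] [Field F] [Algebra K F]
    [IsAlgClosed K] [CharZero K] {x : F} (hx : Transcendental K x) [FiniteDimensional K⟮x⟯ F] :
    HasCanonicalDivisor (K := K) (F := F) := by
  classical
  refine ⟨fun ω hω => ?_⟩
  have hsep : rt_IsSepGen K x := rt_isSepGen_of_charZero hx
  set g : F := hw_kaehlerEquiv hx ω with hg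
  have hωg : ω = g • D K F x := hw_eq_smul_D hx ω
  have hg0 : g ≠ 0 := by
    intro h0
    apply hω
    rw [hωg, h0, zero_smul]
  have hfin : (Function.support fun v : Place K F => v.ord g + rrk_dOrd x v).Finite := by
    refine ((rt_finite_support hsep g).union (rrk_finite_ram hx)).subset ?_
    intro v hv
    rw [Function.mem_support] at hv
    by_cases h1 : v.ord g = 0
    · right
      show rrk_dOrd x v ≠ 0
      intro h2
      apply hv
      rw [h1, h2, add_zero]
    · left
      exact h1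
  refine ⟨Finsupp.ofSupportFinite (fun v => v.ord g + rrk_dOrd x v) hfin, fun v => ?_⟩
  show v.ord g + rrk_dOrd x v = v.ordDifferential ω
  conv_rhs => rw [hωg]
  rw [hw_ordDifferential_smul hx v hg0 (hw_D_ne_zero hx), rrk_dOrd_eq_ordDifferential hx v]

theorem s52ln_coeff_const (a : s52_Qb) (n : ℤ) :
    (algebraMap s52_Qb s52l_Om a).coeff n = if n = 0 then a else 0 := by
  rw [LaurentSeries.algebraMap_apply, HahnSeries.C_apply]
  by_cases hn : n = 0
  · subst hn
    rw [HahnSeries.coeff_single_same, if_pos rfl]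
  · rw [HahnSeries.coeff_single_of_ne hn, if_neg hn]

theorem s52ln_coeff_const_mul (a : s52_Qb) (f : s52l_Om) (n : ℤ) :
    (algebraMap s52_Qb s52l_Om a * f).coeff n = a * f.coeff n := by
  rw [LaurentSeries.algebraMap_apply, HahnSeries.C_apply, HahnSeries.coeff_single_zero_mul]

/-- **[NORM]** -/
theorem s52l_norm_main : s52l_Norm_stmt := by
  intro Fb hF
  classical
  have hu : s52ln_u s52_Qb ∈ Fb := hF.u_mem
  have hst := hF.stable
  set P₀ : Place s52_Qb ↥Fb := s52ln_P0 hu with hP₀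
  set x₀ : ↥Fb := s52ln_uF hu with hx₀
  have hordx₀ : P₀.ord x₀ = 1 := by
    rw [hP₀, s52ln_ord_P0 hu (s52ln_uF_ne_zero hu)]
    exact s52ln_order_u
  have hx₀tr : Transcendental s52_Qb x₀ :=
    hw_transcendental_of_ord_ne_zero P₀ (by rw [hordx₀]; norm_num)
  have hfin : FiniteDimensional s52_Qb⟮x₀⟯ ↥Fb := hF.fin
  have hcan : HasCanonicalDivisor (K := s52_Qb) (F := ↥Fb) := s52ln_hasCanonicalDivisor hx₀tr
  have hg : genus s52_Qb ↥Fb = 0 := hF.genus0
  obtain ⟨y, hyP, hyv, htop, hL⟩ := s52r_geom x₀ hx₀tr hg P₀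
  -- the expansion of `y`
  have hy0 : y ≠ 0 := by
    rintro rfl
    rw [Place.ord_zero] at hyP
    norm_num at hyP
  have hyord : (y : s52l_Om).order = -1 := by
    rw [← s52ln_ord_P0 hu hy0]
    exact hyP
  set c₁ : s52_Qb := (y : s52l_Om).coeff (-1) with hc₁
  set c₀ : s52_Qb := (y : s52l_Om).coeff 0 with hc₀
  have hc₁0 : c₁ ≠ 0 := by
    intro h
    have h1 : (y : s52l_Om).coeff (y : s52l_Om).order = 0 := by rw [hyord]; exact h
    exact s52ln_coe_ne_zero hy0 (HahnSeries.coeff_order_eq_zero.mp h1)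
  -- the normalised generator `s₁ = (y - c₀)/c₁`
  set s₁ : ↥Fb := algebraMap s52_Qb ↥Fb c₁⁻¹ * (y - algebraMap s52_Qb ↥Fb c₀) with hs₁
  have hs₁coe : (s₁ : s52l_Om) =
      algebraMap s52_Qb s52l_Om c₁⁻¹ * ((y : s52l_Om) - algebraMap s52_Qb s52l_Om c₀) := rfl
  have hs₁coeff : ∀ n : ℤ, (s₁ : s52l_Om).coeff n =
      c₁⁻¹ * ((y : s52l_Om).coeff n - if n = 0 then c₀ else 0) := by
    intro n
    rw [hs₁coe, s52ln_coeff_const_mul, HahnSeries.coeff_sub, s52ln_coeff_const]
  have hs₁m1 : (s₁ : s52l_Om).coeff (-1) = 1 := by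
    rw [hs₁coeff, if_neg (by norm_num), sub_zero, ← hc₁, inv_mul_cancel₀ hc₁0]
  have hs₁z : (s₁ : s52l_Om).coeff 0 = 0 := by
    rw [hs₁coeff, if_pos rfl, ← hc₀, sub_self, mul_zero]
  have hs₁ne : s₁ ≠ 0 := by
    intro h
    rw [h] at hs₁m1
    simp at hs₁m1
  have hs₁ord : (s₁ : s52l_Om).order = -1 := by
    apply le_antisymm
    · apply HahnSeries.order_le_of_coeff_ne_zero
      rw [hs₁m1]
      exact one_ne_zero
    · by_contra hlt
      push Not at hlt
      have h1 : (s₁ : s52l_Om).coeff (s₁ : s52l_Om).order = 0 := by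
        rw [hs₁coeff, if_neg (by omega), sub_zero,
          HahnSeries.coeff_eq_zero_of_lt_order (by rw [hyord]; exact hlt), mul_zero]
      exact s52ln_coe_ne_zero hs₁ne (HahnSeries.coeff_order_eq_zero.mp h1)
  -- `s₁` is regular away from `P₀`
  have hs₁v : ∀ v : Place s52_Qb ↥Fb, v ≠ P₀ → 0 ≤ v.ord s₁ := by
    intro v hv
    rw [← hw_mem_iff_ord_nonneg v hs₁ne, hs₁]
    refine mul_mem (v.algebraMap_mem' _) (sub_mem ?_ (v.algebraMap_mem' _))
    exact (hw_mem_iff_ord_nonneg v hy0).mpr (hyv v hv)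
  -- `y` in terms of `s₁`
  have hy_s₁ : y = algebraMap s52_Qb ↥Fb c₁ * s₁ + algebraMap s52_Qb ↥Fb c₀ := by
    rw [hs₁, ← mul_assoc, ← map_mul, mul_inv_cancel₀ hc₁0, map_one, one_mul]
    ring
  -- `s₁` is fixed by `G_ℚ`
  have hs₁fix : ∀ γ : s52_G, s52l_act γ (s₁ : s52l_Om) = (s₁ : s52l_Om) := by
    intro γ
    set g := s52ln_semi hst γ with hg'
    set T : ↥Fb := g • s₁ with hT
    have hTcoe : (T : s52l_Om) = s52l_act γ (s₁ : s52l_Om) := rfl
    have hT0 : T ≠ 0 := by
      intro h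
      apply hs₁ne
      have := congrArg (fun z => g⁻¹ • z) h
      simpa [hT] using this
    have hTP : -1 ≤ P₀.ord T := by
      rw [hP₀, s52ln_ord_P0 hu hT0, hTcoe, s52ln_order_act, hs₁ord]
    have hTv : ∀ v : Place s52_Qb ↥Fb, v ≠ P₀ → 0 ≤ v.ord T := by
      intro v hv
      have h1 := SemilinearAut.ord_smul g (g⁻¹ • v) s₁
      rw [smul_inv_smul] at h1
      rw [hT, h1]
      apply hs₁v
      intro h2
      apply hv
      have h3 : v = g • P₀ := by rw [← h2, smul_inv_smul]
      rw [h3, hP₀, hg', s52ln_semi_smul_P0]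
    obtain ⟨a, b, hab⟩ := hL T hTP hTv
    have habcoe : (T : s52l_Om) =
        algebraMap s52_Qb s52l_Om a + algebraMap s52_Qb s52l_Om b * (y : s52l_Om) := by
      rw [hab, Algebra.smul_def]
      rfl
    have hTm1 : (T : s52l_Om).coeff (-1) = 1 := by
      rw [hTcoe, s52l_act_coeff, hs₁m1, map_one]
    have hTz : (T : s52l_Om).coeff 0 = 0 := by
      rw [hTcoe, s52l_act_coeff, hs₁z, map_zero]
    have hb : b * c₁ = 1 := by
      have := hTm1
      rw [habcoe, HahnSeries.coeff_add, s52ln_coeff_const, if_neg (by norm_num), zero_add,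
        s52ln_coeff_const_mul] at this
      exact this
    have ha : a + b * c₀ = 0 := by
      have := hTz
      rw [habcoe, HahnSeries.coeff_add, s52ln_coeff_const, if_pos rfl,
        s52ln_coeff_const_mul] at this
      exact this
    have hb' : b = c₁⁻¹ := eq_inv_of_mul_eq_one_left hb
    have ha' : a = -(c₁⁻¹ * c₀) := by
      rw [← hb']
      linear_combination ha
    rw [← hTcoe, habcoe, hs₁coe, ha', hb', map_neg, map_mul]
    ring
  -- the uniformiser `s = 1 / s₁`
  set sF : ↥Fb := s₁⁻¹ with hsF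
  have hsF0 : sF ≠ 0 := inv_ne_zero hs₁ne
  have hsFord : (sF : s52l_Om).order = 1 := by
    rw [hsF, s52ln_order_inv hs₁ne, hs₁ord]
    norm_num
  have hmul1 : (s₁ : s52l_Om) * (sF : s52l_Om) = 1 := by
    have : s₁ * sF = 1 := mul_inv_cancel₀ hs₁ne
    exact congrArg Subtype.val this
  have hsFfix : ∀ γ : s52_G, s52l_act γ (sF : s52l_Om) = (sF : s52l_Om) := by
    intro γ
    have h1 : s52l_act γ (s₁ : s52l_Om) * s52l_act γ (sF : s52l_Om) = 1 := by
      rw [← map_mul, hmul1, map_one]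
    rw [hs₁fix γ] at h1
    have hne : (s₁ : s52l_Om) ≠ 0 := s52ln_coe_ne_zero hs₁ne
    exact mul_left_cancel₀ hne (h1.trans hmul1.symm)
  have hsFlc : (sF : s52l_Om).leadingCoeff = 1 := by
    have h1 := HahnSeries.leadingCoeff_mul (s₁ : s52l_Om) (sF : s52l_Om)
    rw [hmul1, HahnSeries.leadingCoeff_one] at h1
    have h2 : (s₁ : s52l_Om).leadingCoeff = 1 := by
      rw [HahnSeries.leadingCoeff_eq, hs₁ord, hs₁m1]
    rw [h2, one_mul] at h1
    exact h1.symm
  -- every element of `Fb` is a rational function of `s`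
  have hy_sF : y ∈ s52_Qb⟮sF⟯ := by
    rw [hy_s₁]
    have hsmem : sF ∈ s52_Qb⟮sF⟯ := mem_adjoin_simple_self s52_Qb sF
    have hs₁mem : s₁ ∈ s52_Qb⟮sF⟯ := by
      have : s₁ = sF⁻¹ := by rw [hsF, inv_inv]
      rw [this]
      exact inv_mem hsmem
    exact add_mem (mul_mem (IntermediateField.algebraMap_mem _ _) hs₁mem)
      (IntermediateField.algebraMap_mem _ _)
  have htopF : s52_Qb⟮sF⟯ = ⊤ := by
    apply top_le_iff.mp
    rw [← htop, adjoin_simple_le_iff]
    exact hy_sF
  have hrat : ∀ f : s52l_Om, f ∈ Fb → ∃ r q : Polynomial s52_Qb,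
      f = aeval (sF : s52l_Om) r / aeval (sF : s52l_Om) q := by
    intro f hf
    have hmem : (⟨f, hf⟩ : ↥Fb) ∈ s52_Qb⟮sF⟯ := by
      rw [htopF]
      exact IntermediateField.mem_top
    obtain ⟨r, q, hrq⟩ := (mem_adjoin_simple_iff s52_Qb _).mp hmem
    refine ⟨r, q, ?_⟩
    have := congrArg (fun z : ↥Fb => (z : s52l_Om)) hrq
    simp only at this
    rw [this]
    have hcoe : ∀ p : Polynomial s52_Qb,
        ((aeval sF p : ↥Fb) : s52l_Om) = aeval (sF : s52l_Om) p := by
      intro p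
      exact (Polynomial.aeval_algHom_apply Fb.val sF p).symm ▸ rfl
    rw [← hcoe r, ← hcoe q]
    rfl
  refine ⟨(sF : s52l_Om), sF.2, hsFfix, hsFord, hsFlc, ?_, ?_⟩
  · -- `Fb = ℚ̄(s)`
    apply le_antisymm
    · intro f hf
      obtain ⟨r, q, hrq⟩ := hrat f hf
      exact (mem_adjoin_simple_iff s52_Qb f).mpr ⟨r, q, hrq⟩
    · rw [adjoin_simple_le_iff]
      exact sF.2
  · -- fixed elements
    intro f hf hfix
    have hstrF : Transcendental s52_Qb sF := by
      refine hw_transcendental_of_ord_ne_zero P₀ ?_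
      rw [hP₀, s52ln_ord_P0 hu hsF0, hsFord]
      norm_num
    have hstrΩ : Transcendental s52_Qb (sF : s52l_Om) := by
      intro halg
      apply hstrF
      exact (isAlgebraic_algHom_iff Fb.val Fb.val.injective).mp halg
    have hstr : Transcendental ℚ (sF : s52l_Om) := by
      rintro ⟨p, hp0, hp⟩
      apply hstrΩ
      refine ⟨p.map (algebraMap ℚ s52_Qb),
        (Polynomial.map_ne_zero_iff (algebraMap ℚ s52_Qb).injective).mpr hp0, ?_⟩
      have hcomp : (algebraMap s52_Qb s52l_Om).comp (algebraMap ℚ s52_Qb) =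
          algebraMap ℚ s52l_Om := RingHom.ext fun q => (s52ln_algebraMap_rat q).symm
      rw [aeval_def, eval₂_map, hcomp, ← aeval_def]
      exact hp
    obtain ⟨r, q, hrq⟩ := hrat f hf
    by_cases hq : aeval (sF : s52l_Om) q = 0
    · rw [hq, div_zero] at hrq
      rw [hrq]
      exact zero_mem _
    · refine s52ln_mem_adjoin hsFfix hstr hfix r q hq ?_
      rw [hrq, div_mul_cancel₀ _ hq]

end Fermat.Agent.S52
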