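/-
S52 (U) GLUE (helper5; prefix `s52l_`): the function-field half of the `3–5` switch,

  `s52l_U : s52l_Norm_stmt → s52l_FAsm_stmt → s52_U_stmt`     (`s52_U_stmt`: FF/Seams.lean)

from the Laurent-series cells.  `𝓔_t : y² = x³ - 27 a t x - 54 b t`, `t = 1 + u`, over
`Ω = ℚ̄((u))`, with the `24` integral points `T` of order `5` ([TORS-LAU], helper14) and the field
`Fb ⊆ Ω` generated by their `x`-coordinates ([F-ASM] = `s52l_FAsm_stmt` below: `G_ℚ`-stable, genus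
`0`, and the `j`-clause).  [NORM] gives `Fb = ℚ̄(s)`, `s = u + O(u²)` fixed by `G_ℚ`, and
`Fb^{G_ℚ} = ℚ(s)`; [YY] (helper28) + [TWIST] give `e` with `e² ∈ ℚ(s)`, `e² = 1 + O(u)` and
`e·y(P) ∈ ℚ̄(s)` for all `P ∈ T`.  Writing `t = pt(s)/qt(s)`, `e² = pd(s)/qd(s)` with
`qt(0) = qd(0) = 1` (`s52l_int`), the single scaling by `e' = e·qt(s)·qd(s)` produces the
polynomial family `(a, b) = (-27a·pt·qt³·pd²·qd², -54b·pt·qt⁵·pd³·qd³)` through `(-27a, -54b)` at
`s = 0`, whose `24` points `(e'²x, e'³y)` have coordinates in `ℚ̄(s)` ([U-TRANS], helper19: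
`s52w_h25`); the `j`-clause is pulled back along `RatFunc ℚ → Fb`, `X ↦ s`.
-/
import Fermat.Agent.S52.FF.Seams
import Fermat.Agent.S52.TORS.Closed
import Fermat.Agent.S52.YY.Main
import Fermat.Agent.S52.UTR.Five
import Fermat.Agent.S52.LAU.Twist
import Fermat.Agent.S52.NOS.Main

set_option autoImplicit false

namespace Fermat.Agent.S52

open Polynomial WeierstrassCurve WeierstrassCurve.Affine Fermat.Agent.LR

noncomputable section

/-! ### Integral Laurent series and evaluation at `s = 0` -/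

/-- `f ∈ ℚ̄[[u]]` -/
def s52l_Int (f : s52l_Om) : Prop := ∀ n : ℤ, n < 0 → f.coeff n = 0

theorem s52l_Int_iff (f : s52l_Om) :
    s52l_Int f ↔ ∃ φ : PowerSeries s52_Qb, HahnSeries.ofPowerSeries ℤ s52_Qb φ = f := by
  constructor
  · intro hf
    refine ⟨PowerSeries.mk fun n => f.coeff n, ?_⟩
    ext i
    rw [PowerSeries.coeff_coe]
    split_ifs with hi
    · exact (hf i hi).symm
    · rw [PowerSeries.coeff_mk]
      congr 1
      omega
  · rintro ⟨φ, rfl⟩ n hn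
    rw [PowerSeries.coeff_coe, if_pos hn]

theorem s52l_coe_coeff_zero (φ : PowerSeries s52_Qb) :
    (HahnSeries.ofPowerSeries ℤ s52_Qb φ).coeff 0 = PowerSeries.constantCoeff φ := by
  rw [PowerSeries.coeff_coe, if_neg (lt_irrefl 0)]
  simp

theorem s52l_Int.mul {f g : s52l_Om} (hf : s52l_Int f) (hg : s52l_Int g) :
    s52l_Int (f * g) ∧ (f * g).coeff 0 = f.coeff 0 * g.coeff 0 := by
  obtain ⟨φ, rfl⟩ := (s52l_Int_iff f).mp hf
  obtain ⟨γ, rfl⟩ := (s52l_Int_iff g).mp hg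
  rw [← map_mul]
  refine ⟨(s52l_Int_iff _).mpr ⟨_, rfl⟩, ?_⟩
  rw [s52l_coe_coeff_zero, s52l_coe_coeff_zero, s52l_coe_coeff_zero, map_mul]

theorem s52l_Int_aeval {s : s52l_Om} (hs : s.order = 1) (P : s52_Qb[X]) : s52l_Int (aeval s P) :=
  (s52l_coeff_aeval hs P).1

theorem s52l_Int_of_order {f : s52l_Om} (hf : 0 ≤ f.order) : s52l_Int f := fun _ hn =>
  HahnSeries.coeff_eq_zero_of_lt_order (lt_of_lt_of_le hn hf)

theorem s52l_order_nonneg_of_Int {f : s52l_Om} (hf : s52l_Int f) : 0 ≤ f.order := by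
  by_cases h0 : f = 0
  · rw [h0, HahnSeries.order_zero]
  · by_contra hlt
    rw [not_le] at hlt
    exact h0 (HahnSeries.coeff_order_eq_zero.mp (hf _ hlt))

/-- `s` is transcendental over `ℚ`. -/
theorem s52l_transcendentalQ {s : s52l_Om} (hs : s.order = 1) : Transcendental ℚ s := by
  rintro ⟨P, hP, h0⟩
  rw [← s52l_aeval_rat, s52l_aeval_eq_zero_iff hs] at h0
  exact hP ((Polynomial.map_eq_zero_iff (algebraMap ℚ s52_Qb).injective).mp h0)

/-- rational version of `s52l_coeff_aeval` -/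
theorem s52l_coeff_aevalQ {s : s52l_Om} (hs : s.order = 1) (P : ℚ[X]) :
    s52l_Int (aeval s P) ∧ (aeval s P).coeff 0 = algebraMap ℚ s52_Qb (P.coeff 0) := by
  rw [← s52l_aeval_rat]
  refine ⟨s52l_Int_aeval hs _, ?_⟩
  rw [(s52l_coeff_aeval hs _).2, Polynomial.coeff_map]

theorem s52l_order_aevalQ {s : s52l_Om} (hs : s.order = 1) {P : ℚ[X]} (hP : P ≠ 0) :
    (aeval s P).order = (P.rootMultiplicity 0 : ℤ) := by
  have hinj : Function.Injective (algebraMap ℚ s52_Qb) := (algebraMap ℚ s52_Qb).injective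
  rw [← s52l_aeval_rat, s52l_order_aeval_eq hs ((Polynomial.map_ne_zero_iff hinj).mpr hP),
    Polynomial.eq_rootMultiplicity_map hinj (0 : ℚ), map_zero]

/-- **Integrality at `s = 0`**: an element of `ℚ(s)` which is a power series in `u` is
`p(s)/q(s)` with `q(0) = 1`; its constant coefficient is `p(0)`. -/
theorem s52l_int {s : s52l_Om} (hs : s.order = 1) {f : s52l_Om}
    (hfm : f ∈ IntermediateField.adjoin ℚ {s}) (hf : s52l_Int f) :
    ∃ p q : ℚ[X], q.coeff 0 = 1 ∧ f * aeval s q = aeval s p ∧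
      algebraMap ℚ s52_Qb (p.coeff 0) = f.coeff 0 := by
  have hs0 : s ≠ 0 := by
    rintro rfl
    rw [HahnSeries.order_zero] at hs
    exact zero_ne_one hs
  -- it suffices to find `q` with `q(0) ≠ 0`
  suffices h : ∃ p q : ℚ[X], q.coeff 0 ≠ 0 ∧ f * aeval s q = aeval s p by
    obtain ⟨p, q, hq0, hpq⟩ := h
    refine ⟨C (q.coeff 0)⁻¹ * p, C (q.coeff 0)⁻¹ * q, ?_, ?_, ?_⟩
    · rw [Polynomial.coeff_C_mul, inv_mul_cancel₀ hq0]
    · rw [map_mul, map_mul, ← hpq]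
      ring
    · have h1 := (s52l_Int.mul hf (s52l_coeff_aevalQ hs (C (q.coeff 0)⁻¹ * q)).1).2
      have h2 : f * aeval s (C (q.coeff 0)⁻¹ * q) = aeval s (C (q.coeff 0)⁻¹ * p) := by
        rw [map_mul, map_mul, ← hpq]
        ring
      rw [h2, (s52l_coeff_aevalQ hs _).2, (s52l_coeff_aevalQ hs _).2,
        Polynomial.coeff_C_mul (p := q), inv_mul_cancel₀ hq0, map_one, mul_one] at h1
      exact h1
  obtain ⟨p, q, hpq⟩ := (IntermediateField.mem_adjoin_simple_iff ℚ _).mp hfm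
  by_cases hqs : aeval s q = 0
  · refine ⟨0, 1, by simp, ?_⟩
    rw [hpq, hqs, div_zero, zero_mul, map_zero]
  have hq : q ≠ 0 := fun h => hqs (by rw [h, map_zero])
  have h1 : f * aeval s q = aeval s p := by rw [hpq, div_mul_cancel₀ _ hqs]
  by_cases hp : p = 0
  · refine ⟨0, 1, by simp, ?_⟩
    rw [hp, map_zero] at h1
    rcases mul_eq_zero.mp h1 with h | h
    · rw [h, zero_mul, map_zero]
    · exact absurd h hqs
  have hps : aeval s p ≠ 0 := by
    intro h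
    exact hp ((map_eq_zero_iff _ (transcendental_iff_injective.mp (s52l_transcendentalQ hs))).mp h)
  have hf0 : f ≠ 0 := by
    rintro rfl
    rw [zero_mul] at h1
    exact hps h1.symm
  -- orders
  have hord : f.order + (q.rootMultiplicity 0 : ℤ) = (p.rootMultiplicity 0 : ℤ) := by
    rw [← s52l_order_aevalQ hs hq, ← s52l_order_aevalQ hs hp, ← HahnSeries.order_mul hf0 hqs, h1]
  have hle : q.rootMultiplicity 0 ≤ p.rootMultiplicity 0 := by
    have := s52l_order_nonneg_of_Int hf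
    omega
  obtain ⟨q₁, hq₁, hq₁d⟩ := Polynomial.exists_eq_pow_rootMultiplicity_mul_and_not_dvd q hq 0
  rw [C_0, sub_zero] at hq₁ hq₁d
  have hq₁0 : q₁.coeff 0 ≠ 0 := fun h => hq₁d (Polynomial.X_dvd_iff.mpr h)
  have hdvd : (X : ℚ[X]) ^ q.rootMultiplicity 0 ∣ p := by
    have h2 := Polynomial.pow_rootMultiplicity_dvd p (0 : ℚ)
    rw [C_0, sub_zero] at h2
    exact (pow_dvd_pow _ hle).trans h2
  obtain ⟨p₁, hp₁⟩ := hdvd
  refine ⟨p₁, q₁, hq₁0, ?_⟩
  have h3 : s ^ q.rootMultiplicity 0 ≠ 0 := pow_ne_zero _ hs0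
  apply mul_left_cancel₀ h3
  have e1 : aeval s q = s ^ q.rootMultiplicity 0 * aeval s q₁ := by
    conv_lhs => rw [hq₁]
    rw [map_mul, map_pow, aeval_X]
  have e2 : aeval s p = s ^ q.rootMultiplicity 0 * aeval s p₁ := by
    conv_lhs => rw [hp₁]
    rw [map_mul, map_pow, aeval_X]
  rw [← e2, ← h1, e1]
  ring


/-! ### Scaling points -/

/-- scaling a point killed by `n`: `(x, y) ↦ (e² x, e³ y)` from `y² = x³ + A x + B` to
`y² = x³ + e⁴ A x + e⁶ B`. -/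
theorem s52l_scale_point {K : Type*} [Field K] [DecidableEq K] {A B e : K} (he : e ≠ 0)
    (hΔ : (s52n_short A B).toAffine.Δ ≠ 0) (n : ℕ) {x y : K}
    (h : (s52n_short A B).toAffine.Nonsingular x y)
    (hP : n • (Point.some x y h : (s52n_short A B).toAffine.Point) = 0) :
    ∃ h' : (s52n_short (e ^ 4 * A) (e ^ 6 * B)).toAffine.Nonsingular (e ^ 2 * x) (e ^ 3 * y),
      n • (Point.some _ _ h' : (s52n_short (e ^ 4 * A) (e ^ 6 * B)).toAffine.Point) = 0 := by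
  set u : Kˣ := (Units.mk0 e he)⁻¹ with hu
  have hu1 : ((u⁻¹ : Kˣ) : K) = e := by rw [hu, inv_inv, Units.val_mk0]
  have hC : s52n_C u • s52n_short A B = s52n_short (e ^ 4 * A) (e ^ 6 * B) := by
    rw [s52n_C_smul, hu1]
  have hmap := lrvc_map_some (s52n_C u) (s52n_short A B).toAffine hC hΔ h
  have hX : lrvc_X (s52n_C u) x = e ^ 2 * x := by
    simp only [lrvc_X, s52n_C]
    rw [hu1, sub_zero]
  have hY : lrvc_Y (s52n_C u) x y = e ^ 3 * y := by
    simp only [lrvc_Y, s52n_C]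
    rw [hu1, zero_mul, sub_zero, sub_zero]
  have gen : ∀ (X Y : K)
      (hXY : (s52n_short (e ^ 4 * A) (e ^ 6 * B)).toAffine.Nonsingular X Y), X = e ^ 2 * x →
      Y = e ^ 3 * y →
      n • (Point.some X Y hXY : (s52n_short (e ^ 4 * A) (e ^ 6 * B)).toAffine.Point) = 0 →
      ∃ h' : (s52n_short (e ^ 4 * A) (e ^ 6 * B)).toAffine.Nonsingular (e ^ 2 * x) (e ^ 3 * y),
        n • (Point.some _ _ h' : (s52n_short (e ^ 4 * A) (e ^ 6 * B)).toAffine.Point) = 0 := by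
    intro X Y hXY hX hY hn
    subst hX hY
    exact ⟨hXY, hn⟩
  have h5 := s52n_map_nsmul (s52n_C u) (s52n_short A B).toAffine hC hΔ n (Point.some x y h)
  rw [hP, lrvc_map_zero, hmap] at h5
  exact gen _ _ _ hX hY h5.symm


/-! ### The pencil in short form -/

/-- `a₄ = -27 a t` of the pencil, in `ℚ̄((u))` -/
def s52l_A0 (a b : ℚ) : s52l_Om := algebraMap s52e_A s52e_Om (s52e_EA a b).a₄

/-- `a₆ = -54 b t` of the pencil, in `ℚ̄((u))` -/
def s52l_B0 (a b : ℚ) : s52l_Om := algebraMap s52e_A s52e_Om (s52e_EA a b).a₆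

theorem s52l_E_eq (a b : ℚ) : s52e_E a b = s52n_short (s52l_A0 a b) (s52l_B0 a b) := by
  ext <;> simp [s52e_E, s52e_EA, WeierstrassCurve.map, s52n_short, s52l_A0, s52l_B0]

theorem s52l_coe_C (c : s52_Qb) :
    algebraMap s52e_A s52e_Om (PowerSeries.C c) = algebraMap s52_Qb s52l_Om c := by
  rw [LaurentSeries.coe_algebraMap, HahnSeries.algebraMap_apply']
  rfl

theorem s52l_algebraMap_rat (q : ℚ) :
    algebraMap s52_Qb s52l_Om (algebraMap ℚ s52_Qb q) = algebraMap ℚ s52l_Om q :=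
  haveI := s52l_isScalarTower
  (IsScalarTower.algebraMap_apply ℚ s52_Qb s52l_Om q).symm

theorem s52l_A0_eq (a b : ℚ) : s52l_A0 a b = algebraMap ℚ s52l_Om (-27 * a) * s52e_t := by
  unfold s52l_A0 s52e_EA s52e_t
  simp only [map_mul, map_neg, map_add, map_one, map_ofNat, s52e_iota_X, s52l_coe_C,
    s52l_algebraMap_rat]

theorem s52l_B0_eq (a b : ℚ) : s52l_B0 a b = algebraMap ℚ s52l_Om (-54 * b) * s52e_t := by
  unfold s52l_B0 s52e_EA s52e_t
  simp only [map_mul, map_neg, map_add, map_one, map_ofNat, s52e_iota_X, s52l_coe_C,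
    s52l_algebraMap_rat]

theorem s52l_t_eq : s52e_t = algebraMap s52e_A s52e_Om (1 + PowerSeries.X) := by
  rw [map_add, map_one, s52e_iota_X, s52e_t]

theorem s52l_act_t (γ : s52_G) : s52l_act γ s52e_t = s52e_t := by
  rw [s52l_t_eq, s52e_act_coe, map_add, map_one, PowerSeries.map_X]

theorem s52l_act_rat (γ : s52_G) (q : ℚ) :
    s52l_act γ (algebraMap ℚ s52l_Om q) = algebraMap ℚ s52l_Om q := by
  rw [← s52l_algebraMap_rat, s52l_act_algebraMap, AlgEquiv.commutes]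

theorem s52l_act_A0 (a b : ℚ) (γ : s52_G) : s52l_act γ (s52l_A0 a b) = s52l_A0 a b := by
  rw [s52l_A0_eq, map_mul, s52l_act_t, s52l_act_rat]

theorem s52l_act_B0 (a b : ℚ) (γ : s52_G) : s52l_act γ (s52l_B0 a b) = s52l_B0 a b := by
  rw [s52l_B0_eq, map_mul, s52l_act_t, s52l_act_rat]

theorem s52l_Int_coe (φ : s52e_A) : s52l_Int (algebraMap s52e_A s52e_Om φ) := by
  rw [LaurentSeries.coe_algebraMap]
  exact (s52l_Int_iff _).mpr ⟨φ, rfl⟩

theorem s52l_coeff_zero_coe (φ : s52e_A) :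
    (algebraMap s52e_A s52e_Om φ).coeff 0 = PowerSeries.constantCoeff φ := by
  rw [LaurentSeries.coe_algebraMap]
  exact s52l_coe_coeff_zero φ

theorem s52l_t_Int : s52l_Int s52e_t ∧ s52e_t.coeff 0 = 1 := by
  rw [s52l_t_eq]
  refine ⟨s52l_Int_coe _, ?_⟩
  rw [s52l_coeff_zero_coe]
  simp

/-- a unit power series has order `0` in `ℚ̄((u))` -/
theorem s52l_order_of_unit {φ : s52e_A} (hφ : IsUnit φ) :
    algebraMap s52e_A s52e_Om φ ≠ 0 ∧ (algebraMap s52e_A s52e_Om φ).order = 0 := by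
  have h0 : PowerSeries.constantCoeff φ ≠ 0 := by
    have := PowerSeries.isUnit_iff_constantCoeff.mp hφ
    exact this.ne_zero
  have h1 := s52l_order_eq_zero (f := algebraMap s52e_A s52e_Om φ) (s52l_Int_coe φ)
    (by rw [s52l_coeff_zero_coe]; exact h0)
  refine ⟨?_, h1.1⟩
  apply HahnSeries.ne_zero_of_coeff_ne_zero (g := 0)
  rw [s52l_coeff_zero_coe]
  exact h0

/-! ### The torsion facts of [TORS-LAU] in short form -/

theorem s52l_Δ_ne (a b : ℚ) (hΔ : a ^ 3 - b ^ 2 ≠ 0) :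
    (s52n_short (s52l_A0 a b) (s52l_B0 a b)).toAffine.Δ ≠ 0 := by
  have := s52e_E_Δ_ne a b hΔ
  rw [s52l_E_eq] at this
  exact this

theorem s52l_tors_facts [DecidableEq s52e_Om] (a b : ℚ) (hΔ : a ^ 3 - b ^ 2 ≠ 0) :
    ∃ T : Finset (s52e_A × s52e_A), T.card = 24 ∧ (∀ p ∈ T, p ∈ s52e_T a b) ∧
      (∀ p ∈ T, ∃ h : (s52n_short (s52l_A0 a b) (s52l_B0 a b)).toAffine.Nonsingular
          (algebraMap s52e_A s52e_Om p.1) (algebraMap s52e_A s52e_Om p.2),
        5 • (Point.some _ _ h : (s52n_short (s52l_A0 a b) (s52l_B0 a b)).toAffine.Point) = 0) ∧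
      (∀ (x y : s52e_Om) (h : (s52n_short (s52l_A0 a b) (s52l_B0 a b)).toAffine.Nonsingular x y),
        5 • (Point.some x y h : (s52n_short (s52l_A0 a b) (s52l_B0 a b)).toAffine.Point) = 0 →
        ∃ p ∈ T, algebraMap s52e_A s52e_Om p.1 = x ∧ algebraMap s52e_A s52e_Om p.2 = y) := by
  suffices H : ∀ W : WeierstrassCurve s52e_Om, s52e_E a b = W →
      ∃ T : Finset (s52e_A × s52e_A), T.card = 24 ∧ (∀ p ∈ T, p ∈ s52e_T a b) ∧
      (∀ p ∈ T, ∃ h : W.toAffine.Nonsingular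
          (algebraMap s52e_A s52e_Om p.1) (algebraMap s52e_A s52e_Om p.2),
        5 • (Point.some _ _ h : W.toAffine.Point) = 0) ∧
      (∀ (x y : s52e_Om) (h : W.toAffine.Nonsingular x y),
        5 • (Point.some x y h : W.toAffine.Point) = 0 →
        ∃ p ∈ T, algebraMap s52e_A s52e_Om p.1 = x ∧ algebraMap s52e_A s52e_Om p.2 = y) from
    H _ (s52l_E_eq a b)
  rintro W rfl
  obtain ⟨T, hcard, hTeq, -, hall⟩ := s52e_T_closed a b hΔ
  have hmem : ∀ p ∈ T, p ∈ s52e_T a b := fun p hp => by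
    rw [← hTeq]
    exact hp
  refine ⟨T, hcard, hmem, fun p hp => ⟨s52e_T_nonsingular a b hΔ (hmem p hp),
    s52e_T_torsion a b hΔ (hmem p hp)⟩, fun x y h h5 => ?_⟩
  rcases hall _ h5 with h0 | ⟨p, hp, h', hP⟩
  · exact absurd h0 (by simp)
  · have := Point.some.inj hP
    exact ⟨p, hp, this.1.symm, this.2.symm⟩


/-! ### The seam for [F-ASM] + [JPOLE] -/

/-- **[F-ASM]**: the field generated by `u` and the `x`-coordinates of `𝓔_t[5]` is a `G_ℚ`-stable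
genus `0` field, and `j = 1728 t/(t - b²/a³)` is not the `j`-invariant of a curve with a
`3`-isogeny over it. -/
def s52l_FAsm_stmt : Prop :=
  ∀ a b : ℚ, a ≠ 0 → b ≠ 0 → a ^ 3 - b ^ 2 ≠ 0 →
    ∃ (Fb : IntermediateField s52_Qb s52l_Om) (ht : s52e_t ∈ Fb), s52l_Field Fb ∧
      (∀ r ∈ s52e_R a b, r ∈ Fb) ∧
      ∀ h : ↥Fb, (h + 27) * (h + 3) ^ 3 *
          ((⟨s52e_t, ht⟩ : ↥Fb) - algebraMap s52_Qb ↥Fb (algebraMap ℚ s52_Qb (b ^ 2 / a ^ 3))) ≠
        1728 * (⟨s52e_t, ht⟩ : ↥Fb) * h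

/-! ### The twisting element -/

/-- There is `e ≠ 0` with `e² ∈ ℚ(s)`, `e² = 1 + O(u)`, and `e·y(P) ∈ ℚ̄(s)` for all `P ∈ 𝓔_t[5]`. -/
theorem s52l_exists_e [DecidableEq s52e_Om] (a b : ℚ) (hΔ : a ^ 3 - b ^ 2 ≠ 0)
    (Fb : IntermediateField s52_Qb s52l_Om) (ht : s52e_t ∈ Fb)
    (hR : ∀ r ∈ s52e_R a b, r ∈ Fb) (s : s52l_Om) (hfix : ∀ γ : s52_G, s52l_act γ s = s)
    (hord : s.order = 1) (hFb : Fb = IntermediateField.adjoin s52_Qb {s})
    (T : Finset (s52e_A × s52e_A)) (hTne : T.Nonempty) (hTmem : ∀ p ∈ T, p ∈ s52e_T a b)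
    (hTpt : ∀ p ∈ T, ∃ h : (s52n_short (s52l_A0 a b) (s52l_B0 a b)).toAffine.Nonsingular
          (algebraMap s52e_A s52e_Om p.1) (algebraMap s52e_A s52e_Om p.2),
        5 • (Point.some _ _ h : (s52n_short (s52l_A0 a b) (s52l_B0 a b)).toAffine.Point) = 0)
    (hTall : ∀ (x y : s52e_Om)
        (h : (s52n_short (s52l_A0 a b) (s52l_B0 a b)).toAffine.Nonsingular x y),
        5 • (Point.some x y h : (s52n_short (s52l_A0 a b) (s52l_B0 a b)).toAffine.Point) = 0 →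
        ∃ p ∈ T, algebraMap s52e_A s52e_Om p.1 = x ∧ algebraMap s52e_A s52e_Om p.2 = y) :
    ∃ e : s52l_Om, e ≠ 0 ∧ e ^ 2 ∈ IntermediateField.adjoin ℚ {s} ∧ (e ^ 2).order = 0 ∧
      (e ^ 2).leadingCoeff = 1 ∧ ∀ p ∈ T, e * algebraMap s52e_A s52e_Om p.2 ∈ Fb := by
  have h2 : (2 : s52l_Om) ≠ 0 := by
    rw [← map_ofNat (algebraMap s52_Qb s52l_Om) 2]
    exact (_root_.map_ne_zero _).mpr two_ne_zero
  -- the coefficients lie in `Fb`
  have hratFb : ∀ q : ℚ, algebraMap ℚ s52l_Om q ∈ Fb := fun q => by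
    rw [← s52l_algebraMap_rat]
    exact Fb.algebraMap_mem _
  have hA : s52l_A0 a b ∈ Fb := by
    rw [s52l_A0_eq]
    exact Fb.mul_mem (hratFb _) ht
  have hB : s52l_B0 a b ∈ Fb := by
    rw [s52l_B0_eq]
    exact Fb.mul_mem (hratFb _) ht
  -- all `x`-coordinates lie in `Fb`
  have hT1 : ∀ p ∈ T, algebraMap s52e_A s52e_Om p.1 ∈ Fb := fun p hp =>
    hR _ ((s52e_mem_R_iff a b hΔ _).mpr ⟨p.1, (hTmem p hp).1, rfl⟩)
  have hx : ∀ (x y : s52e_Om)
      (h : (s52n_short (s52l_A0 a b) (s52l_B0 a b)).toAffine.Nonsingular x y),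
      5 • (Point.some x y h : (s52n_short (s52l_A0 a b) (s52l_B0 a b)).toAffine.Point) = 0 →
      x ∈ Fb := by
    intro x y h h5
    obtain ⟨p, hp, hpx, -⟩ := hTall x y h h5
    rw [← hpx]
    exact hT1 p hp
  -- the base point
  obtain ⟨p₀, hp₀⟩ := hTne
  obtain ⟨h₀, h₀5⟩ := hTpt p₀ hp₀
  obtain ⟨hη, hηord⟩ := s52l_order_of_unit (s52e_T_unit a b hΔ (hTmem p₀ hp₀))
  set η : s52l_Om := algebraMap s52e_A s52e_Om p₀.2 with hηdef
  have hη2 : η ^ 2 ∈ Fb := s52y_sq_mem Fb.toSubfield hA hB h₀ (hT1 p₀ hp₀)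
  have hγ : ∀ γ : s52_G, ∃ r ∈ IntermediateField.adjoin s52_Qb {s}, s52l_act γ η = r * η := by
    intro γ
    rw [← hFb]
    exact s52y_galois_if h2 Fb hA hB 5 hx (s52l_act γ) (s52l_act_A0 a b γ) (s52l_act_B0 a b γ)
      h₀ h₀5 hη
  obtain ⟨d, hd, h, hh, hh0, hdh, hdord, hdlc⟩ :=
    s52l_twist s hfix hord η hη hηord (by rw [← hFb]; exact hη2) hγ
  rw [← hFb] at hh
  have hde : (η * h) ^ 2 = d := by rw [hdh, mul_pow]
  refine ⟨η * h, mul_ne_zero hη hh0, by rw [hde]; exact hd, by rw [hde]; exact hdord,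
    by rw [hde]; exact hdlc, fun p hp => ?_⟩
  obtain ⟨h₁, h₁5⟩ := hTpt p hp
  obtain ⟨r, hr, hrη⟩ := s52y_ratio_if h2 Fb hA hB 5 hx h₀ h₀5 hη h₁ h₁5
  rw [hrη]
  have : η * h * (r * η) = h * r * η ^ 2 := by ring
  rw [this]
  exact Fb.mul_mem (Fb.mul_mem hh hr) hη2


/-! ### The assembly -/

theorem s52l_adjoinQ_le {Fb : IntermediateField s52_Qb s52l_Om} {s : s52l_Om} (hs : s ∈ Fb)
    {x : s52l_Om} (hx : x ∈ IntermediateField.adjoin ℚ {s}) : x ∈ Fb := by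
  obtain ⟨p, q, rfl⟩ := (IntermediateField.mem_adjoin_simple_iff ℚ _).mp hx
  have key : ∀ P : ℚ[X], aeval s P ∈ Fb := by
    intro P
    rw [← s52l_aeval_rat]
    have h1 : Algebra.adjoin s52_Qb {s} ≤ Fb.toSubalgebra :=
      Algebra.adjoin_le (by simpa using hs)
    exact h1 (Polynomial.aeval_mem_adjoin_singleton s52_Qb s)
  exact Fb.div_mem (key p) (key q)

/-- the `j`-clause of [F-ASM], inside `ℚ̄((u))` -/
theorem s52l_J3_val {Fb : IntermediateField s52_Qb s52l_Om} (ht : s52e_t ∈ Fb) (c : s52_Qb)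
    (hJ3 : ∀ h : ↥Fb, (h + 27) * (h + 3) ^ 3 *
          ((⟨s52e_t, ht⟩ : ↥Fb) - algebraMap s52_Qb ↥Fb c) ≠ 1728 * (⟨s52e_t, ht⟩ : ↥Fb) * h)
    (H : s52l_Om) (hH : H ∈ Fb) :
    (H + 27) * (H + 3) ^ 3 * (s52e_t - algebraMap s52_Qb s52l_Om c) ≠ 1728 * s52e_t * H := by
  intro heq
  apply hJ3 ⟨H, hH⟩
  apply Subtype.ext
  exact heq

/-- **(U)**: the function-field half of the `3–5` switch, from [NORM] and [F-ASM]. -/
theorem s52l_U (hN : s52l_Norm_stmt) (hF : s52l_FAsm_stmt) : s52_U_stmt := by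
  classical
  intro a₀ b₀ ha₀ hb₀ hΔ₀
  obtain ⟨a, rfl⟩ : ∃ a : ℚ, a₀ = -27 * a := ⟨-a₀ / 27, by ring⟩
  obtain ⟨b, rfl⟩ : ∃ b : ℚ, b₀ = -54 * b := ⟨-b₀ / 54, by ring⟩
  have ha0 : a ≠ 0 := fun h => ha₀ (by rw [h, mul_zero])
  have hb0 : b ≠ 0 := fun h => hb₀ (by rw [h, mul_zero])
  have hΔ : a ^ 3 - b ^ 2 ≠ 0 := by
    intro h
    apply hΔ₀
    linear_combination (-78732 : ℚ) * h
  obtain ⟨Fb, ht, hField, hR, hJ3⟩ := hF a b ha0 hb0 hΔ
  obtain ⟨s, hsFb, hfix, hord, -, hFbeq, hfixed⟩ := hN Fb hField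
  obtain ⟨T, hTcard, hTmem, hTpt, hTall⟩ := s52l_tors_facts a b hΔ
  have hTne : T.Nonempty := Finset.card_pos.mp (by rw [hTcard]; norm_num)
  obtain ⟨e, he, hemem, heord, helc, heT⟩ :=
    s52l_exists_e a b hΔ Fb ht hR s hfix hord hFbeq T hTne hTmem hTpt hTall
  have hinjQ : Function.Injective (algebraMap ℚ s52_Qb) := (algebraMap ℚ s52_Qb).injective
  have htr := s52l_transcendentalQ hord
  -- `t = pt(s)/qt(s)`
  have htQ : s52e_t ∈ IntermediateField.adjoin ℚ {s} := hfixed _ ht s52l_act_t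
  obtain ⟨pt, qt, hqt0, htq, hpt0⟩ := s52l_int hord htQ s52l_t_Int.1
  rw [s52l_t_Int.2] at hpt0
  have hpt0' : pt.coeff 0 = 1 := hinjQ (by rw [hpt0, map_one])
  -- `d = e² = pd(s)/qd(s)`
  obtain ⟨pd, qd, hqd0, hdq, hpd0⟩ := s52l_int hord hemem (s52l_Int_of_order (by rw [heord]))
  have hd0 : (e ^ 2).coeff 0 = 1 := by rw [← helc, HahnSeries.leadingCoeff_eq, heord]
  rw [hd0] at hpd0
  have hpd0' : pd.coeff 0 = 1 := hinjQ (by rw [hpd0, map_one])
  -- the scaling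
  have hqq : qt * qd ≠ 0 := by
    have h0 : (qt * qd).coeff 0 = 1 := by rw [Polynomial.mul_coeff_zero, hqt0, hqd0, mul_one]
    intro h
    rw [h, Polynomial.coeff_zero] at h0
    exact zero_ne_one h0
  have hlam0 : aeval s (qt * qd) ≠ 0 := by
    intro h
    exact hqq ((map_eq_zero_iff _ (transcendental_iff_injective.mp htr)).mp h)
  have he'0 : e * aeval s (qt * qd) ≠ 0 := mul_ne_zero he hlam0
  have hlamFb : aeval s (qt * qd) ∈ Fb :=
    s52l_adjoinQ_le hsFb (IntermediateField.algebra_adjoin_le_adjoin ℚ _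
      (Polynomial.aeval_mem_adjoin_singleton ℚ s))
  have he2Fb : e ^ 2 ∈ Fb := s52l_adjoinQ_le hsFb hemem
  -- the polynomial invariants
  have hα : aeval s (C (-27 * a) * pt * qt ^ 3 * pd ^ 2 * qd ^ 2) =
      (e * aeval s (qt * qd)) ^ 4 * s52l_A0 a b := by
    rw [s52l_A0_eq]
    simp only [map_mul, map_pow, aeval_C]
    rw [← htq, ← hdq]
    ring
  have hβ : aeval s (C (-54 * b) * pt * qt ^ 5 * pd ^ 3 * qd ^ 3) =
      (e * aeval s (qt * qd)) ^ 6 * s52l_B0 a b := by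
    rw [s52l_B0_eq]
    simp only [map_mul, map_pow, aeval_C]
    rw [← htq, ← hdq]
    ring
  have hpt1 : pt.eval 0 = 1 := by rw [← Polynomial.coeff_zero_eq_eval_zero, hpt0']
  have hqt1 : qt.eval 0 = 1 := by rw [← Polynomial.coeff_zero_eq_eval_zero, hqt0]
  have hpd1 : pd.eval 0 = 1 := by rw [← Polynomial.coeff_zero_eq_eval_zero, hpd0']
  have hqd1 : qd.eval 0 = 1 := by rw [← Polynomial.coeff_zero_eq_eval_zero, hqd0]
  refine ⟨C (-27 * a) * pt * qt ^ 3 * pd ^ 2 * qd ^ 2, C (-54 * b) * pt * qt ^ 5 * pd ^ 3 * qd ^ 3,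
    ?_, ?_, ?_, ?_⟩
  · simp only [eval_mul, eval_pow, eval_C, hpt1, hqt1, hpd1, hqd1, one_pow, mul_one]
  · simp only [eval_mul, eval_pow, eval_C, hpt1, hqt1, hpd1, hqd1, one_pow, mul_one]
  · -- `H25`
    unfold s52_H25
    have hinj : Function.Injective (fun p : s52e_A × s52e_A =>
        ((e * aeval s (qt * qd)) ^ 2 * algebraMap s52e_A s52e_Om p.1,
          (e * aeval s (qt * qd)) ^ 3 * algebraMap s52e_A s52e_Om p.2)) := by
      intro p q hpq
      have h1 := (Prod.ext_iff.mp hpq).1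
      have h2 := (Prod.ext_iff.mp hpq).2
      simp only at h1 h2
      exact Prod.ext (s52e_iota_injective (mul_left_cancel₀ (pow_ne_zero 2 he'0) h1))
        (s52e_iota_injective (mul_left_cancel₀ (pow_ne_zero 3 he'0) h2))
    refine s52w_h25 s (s52l_transcendental hord) _ _ (T.image (fun p : s52e_A × s52e_A =>
        ((e * aeval s (qt * qd)) ^ 2 * algebraMap s52e_A s52e_Om p.1,
          (e * aeval s (qt * qd)) ^ 3 * algebraMap s52e_A s52e_Om p.2))) ?_ ?_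
    · rw [Finset.card_image_of_injective _ hinj, hTcard]
    · intro q hq
      obtain ⟨p, hp, rfl⟩ := Finset.mem_image.mp hq
      have hp1 : algebraMap s52e_A s52e_Om p.1 ∈ Fb :=
        hR _ ((s52e_mem_R_iff a b hΔ _).mpr ⟨p.1, (hTmem p hp).1, rfl⟩)
      refine ⟨?_, ?_, ?_⟩
      · rw [← hFbeq]
        have : (e * aeval s (qt * qd)) ^ 2 * algebraMap s52e_A s52e_Om p.1 =
            e ^ 2 * aeval s (qt * qd) ^ 2 * algebraMap s52e_A s52e_Om p.1 := by ring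
        rw [this]
        exact Fb.mul_mem (Fb.mul_mem he2Fb (Fb.pow_mem hlamFb 2)) hp1
      · rw [← hFbeq]
        have : (e * aeval s (qt * qd)) ^ 3 * algebraMap s52e_A s52e_Om p.2 =
            e ^ 2 * aeval s (qt * qd) ^ 3 * (e * algebraMap s52e_A s52e_Om p.2) := by ring
        rw [this]
        exact Fb.mul_mem (Fb.mul_mem he2Fb (Fb.pow_mem hlamFb 3)) (heT p hp)
      · obtain ⟨h₁, h₁5⟩ := hTpt p hp
        rw [s52l_aeval_rat, s52l_aeval_rat, hα, hβ]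
        exact s52l_scale_point he'0 (s52l_Δ_ne a b hΔ) 5 h₁ h₁5
  · -- the `j`-clause
    intro H hH
    generalize hAP : algebraMap ℚ[X] (RatFunc ℚ)
        (C (-27 * a) * pt * qt ^ 3 * pd ^ 2 * qd ^ 2) = AP at hH
    generalize hBP : algebraMap ℚ[X] (RatFunc ℚ)
        (C (-54 * b) * pt * qt ^ 5 * pd ^ 3 * qd ^ 3) = BP at hH
    have hθa : s52w_theta s htr AP = (e * aeval s (qt * qd)) ^ 4 * s52l_A0 a b := by
      rw [← hAP, s52w_theta_algebraMap, hα]
    have hθb : s52w_theta s htr BP = (e * aeval s (qt * qd)) ^ 6 * s52l_B0 a b := by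
      rw [← hBP, s52w_theta_algebraMap, hβ]
    have hθmem : s52w_theta s htr H ∈ Fb := by
      apply s52l_adjoinQ_le hsFb
      exact (RatFunc.algEquivOfTranscendental s htr H).2
    have h1 := congrArg (s52w_theta s htr) hH
    simp only [map_mul, map_add, map_pow, map_ofNat] at h1
    rw [hθa, hθb, s52l_A0_eq, s52l_B0_eq] at h1
    have ht0 : s52e_t ≠ 0 := by
      apply HahnSeries.ne_zero_of_coeff_ne_zero (g := 0)
      rw [s52l_t_Int.2]
      exact one_ne_zero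
    have hα0 : algebraMap ℚ s52l_Om a ≠ 0 := (_root_.map_ne_zero _).mpr ha0
    refine s52l_J3_val ht _ hJ3 _ hθmem ?_
    rw [s52l_algebraMap_rat]
    have hc : (algebraMap ℚ s52l_Om a) ^ 3 * algebraMap ℚ s52l_Om (b ^ 2 / a ^ 3) =
        (algebraMap ℚ s52l_Om b) ^ 2 := by
      rw [map_div₀, map_pow, map_pow]
      field_simp
    have key : (s52w_theta s htr H + 27) * (s52w_theta s htr H + 3) ^ 3 *
        ((algebraMap ℚ s52l_Om a) ^ 3 * s52e_t - (algebraMap ℚ s52l_Om b) ^ 2) =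
        1728 * (algebraMap ℚ s52l_Om a) ^ 3 * s52e_t * s52w_theta s htr H := by
      have hne : (e * aeval s (qt * qd)) ^ 12 * s52e_t ^ 2 * (-78732 : s52l_Om) ≠ 0 := by
        refine mul_ne_zero (mul_ne_zero (pow_ne_zero 12 he'0) (pow_ne_zero 2 ht0)) ?_
        rw [← map_ofNat (algebraMap s52_Qb s52l_Om) 78732, ← map_neg]
        exact (_root_.map_ne_zero _).mpr (by norm_num)
      apply mul_left_cancel₀ hne
      have hcA : algebraMap ℚ s52l_Om (-27 * a) = -27 * algebraMap ℚ s52l_Om a := by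
        rw [map_mul, map_neg, map_ofNat]
      have hcB : algebraMap ℚ s52l_Om (-54 * b) = -54 * algebraMap ℚ s52l_Om b := by
        rw [map_mul, map_neg, map_ofNat]
      rw [hcA, hcB] at h1
      linear_combination h1
    apply mul_left_cancel₀ (pow_ne_zero 3 hα0)
    linear_combination key - (s52w_theta s htr H + 27) * (s52w_theta s htr H + 3) ^ 3 * hc

end

end Fermat.Agent.S52
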