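/-
S52 (U) GLUE, with [NORM] discharged (helper5; prefix `s52l_`):

  `s52l_U_of_FAsm : s52l_FAsm_stmt → s52_U_stmt`

`s52l_Norm_stmt` is closed by helper26's `s52l_norm_main` (LAU/Norm.lean); the only input left is
`s52l_FAsm_stmt` ([F-ASM], LAU/Univ.lean).
-/
import Fermat.Agent.S52.LAU.Univ
import Fermat.Agent.S52.LAU.Norm

set_option autoImplicit false

namespace Fermat.Agent.S52

/-- **(U)** from [F-ASM] alone. -/
theorem s52l_U_of_FAsm (hF : s52l_FAsm_stmt) : s52_U_stmt :=
  s52l_U s52l_norm_main hF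

end Fermat.Agent.S52
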